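/-
P-S56, block (A) LOCAL FLAT, ramification layer (R1) (helper42): lower numbering ramification
groups of a group `G` acting on a discrete valuation ring `B` by ring automorphisms.

Conventions (Serre, Local Fields IV): `lowerGroup G B n` is Serre's `G_{n-1}`
(`n = 0`: everything, `n = 1`: inertia, `n = 2`: wild inertia), and `iFun G B σ` is Serre's
`i_G(σ) = inf_x v_B(σ x - x)` with values in `ℕ∞`, so that `σ ∈ G_{n-1} ↔ n ≤ i_G(σ)`.
-/
import Mathlib

set_option autoImplicit false

namespace Fermat.Agent.S56x.Ram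

open IsLocalRing

section Basic

variable (B : Type*) [CommRing B] [IsDomain B] [IsDiscreteValuationRing B]

/-- membership in a power of the maximal ideal of a discrete valuation ring, via the additive
valuation. -/
theorem mem_maximalIdeal_pow_iff (x : B) (n : ℕ) :
    x ∈ IsLocalRing.maximalIdeal B ^ n ↔ (n : ℕ∞) ≤ IsDiscreteValuationRing.addVal B x := by
  obtain ⟨ϖ, hϖ⟩ := IsDiscreteValuationRing.exists_irreducible B
  rw [hϖ.maximalIdeal_eq, Ideal.span_singleton_pow, Ideal.mem_span_singleton,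
    ← IsDiscreteValuationRing.addVal_le_iff_dvd, IsDiscreteValuationRing.addVal_pow,
    IsDiscreteValuationRing.addVal_uniformizer hϖ]
  simp

end Basic

section Action

variable (G : Type*) [Group G] (B : Type*) [CommRing B] [IsDomain B] [IsDiscreteValuationRing B]
  [MulSemiringAction G B]

/-- the additive valuation is invariant under ring automorphisms. -/
theorem addVal_smul (σ : G) (x : B) :
    IsDiscreteValuationRing.addVal B (σ • x) = IsDiscreteValuationRing.addVal B x := by
  have key : ∀ (τ : G) (y : B), IsDiscreteValuationRing.addVal B y ≤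
      IsDiscreteValuationRing.addVal B (τ • y) := by
    intro τ y
    by_cases hy : y = 0
    · subst hy; simp
    obtain ⟨ϖ, hϖ⟩ := IsDiscreteValuationRing.exists_irreducible B
    obtain ⟨n, u, rfl⟩ := IsDiscreteValuationRing.eq_unit_mul_pow_irreducible hy hϖ
    have h1 : IsDiscreteValuationRing.addVal B (↑u * ϖ ^ n) = n :=
      IsDiscreteValuationRing.addVal_def _ u hϖ n rfl
    rw [h1, smul_mul', smul_pow', IsDiscreteValuationRing.addVal_mul,
      IsDiscreteValuationRing.addVal_pow]
    have h2 : (1 : ℕ∞) ≤ IsDiscreteValuationRing.addVal B (τ • ϖ) := by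
      by_contra hlt
      have h0 : IsDiscreteValuationRing.addVal B (τ • ϖ) = 0 := by
        rw [not_le] at hlt
        exact Order.lt_one_iff.mp hlt
      rw [IsDiscreteValuationRing.addVal_eq_zero_iff] at h0
      have : IsUnit (τ⁻¹ • τ • ϖ) := h0.map (MulSemiringAction.toRingHom G B τ⁻¹)
      rw [inv_smul_smul] at this
      exact hϖ.not_isUnit this
    calc (n : ℕ∞) = n • 1 := by simp
      _ ≤ n • IsDiscreteValuationRing.addVal B (τ • ϖ) := nsmul_le_nsmul_right h2 n
      _ ≤ _ := le_add_self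
  refine le_antisymm ?_ (key σ x)
  have := key σ⁻¹ (σ • x)
  rwa [inv_smul_smul] at this

/-- **lower ramification groups**: `lowerGroup G B n` is Serre's `G_{n-1}`. -/
def lowerGroup (n : ℕ) : Subgroup G :=
  ((IsLocalRing.maximalIdeal B ^ n).toAddSubgroup).inertia G

variable {G B}

theorem mem_lowerGroup {n : ℕ} {σ : G} :
    σ ∈ lowerGroup G B n ↔ ∀ x : B, σ • x - x ∈ IsLocalRing.maximalIdeal B ^ n := Iff.rfl

variable (G B)

/-- **Serre's `i_G`**. -/
noncomputable def iFun (σ : G) : ℕ∞ := ⨅ x : B, IsDiscreteValuationRing.addVal B (σ • x - x)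

variable {G B}

theorem iFun_le (σ : G) (x : B) : iFun G B σ ≤ IsDiscreteValuationRing.addVal B (σ • x - x) :=
  iInf_le _ x

theorem le_iFun_iff {σ : G} {a : ℕ∞} :
    a ≤ iFun G B σ ↔ ∀ x : B, a ≤ IsDiscreteValuationRing.addVal B (σ • x - x) := le_iInf_iff

theorem mem_lowerGroup_iff_le_iFun {n : ℕ} {σ : G} :
    σ ∈ lowerGroup G B n ↔ (n : ℕ∞) ≤ iFun G B σ := by
  rw [mem_lowerGroup, le_iFun_iff]
  exact forall_congr' fun x => mem_maximalIdeal_pow_iff B _ n

variable (G B)

theorem lowerGroup_zero : lowerGroup G B 0 = ⊤ := by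
  ext σ
  simp [mem_lowerGroup_iff_le_iFun]

theorem lowerGroup_antitone : Antitone (lowerGroup G B) := by
  intro m n hmn σ hσ
  rw [mem_lowerGroup_iff_le_iFun] at hσ ⊢
  exact le_trans (by exact_mod_cast hmn) hσ

variable {G B}

@[simp] theorem iFun_one : iFun G B (1 : G) = ⊤ := by
  rw [eq_top_iff, le_iFun_iff]
  intro x
  simp

theorem iFun_eq_top_iff [FaithfulSMul G B] {σ : G} : iFun G B σ = ⊤ ↔ σ = 1 := by
  constructor
  · intro h
    apply FaithfulSMul.eq_of_smul_eq_smul (α := B)
    intro x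
    have h1 := iFun_le σ x
    rw [h, top_le_iff, IsDiscreteValuationRing.addVal_eq_top_iff, sub_eq_zero] at h1
    rw [h1, one_smul]
  · rintro rfl
    exact iFun_one

theorem iFun_inv (σ : G) : iFun G B σ⁻¹ = iFun G B σ := by
  have key : ∀ τ : G, iFun G B τ ≤ iFun G B τ⁻¹ := by
    intro τ
    rw [le_iFun_iff]
    intro x
    have h := iFun_le τ (τ⁻¹ • x)
    rw [smul_inv_smul, ← (IsDiscreteValuationRing.addVal B).map_neg, neg_sub] at h
    exact h
  refine le_antisymm ?_ (key σ)
  have := key σ⁻¹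
  rwa [inv_inv] at this

theorem le_iFun_mul (σ τ : G) : min (iFun G B σ) (iFun G B τ) ≤ iFun G B (σ * τ) := by
  rw [le_iFun_iff]
  intro x
  have h : (σ * τ) • x - x = (σ • (τ • x) - τ • x) + (τ • x - x) := by
    rw [mul_smul]; ring
  rw [h]
  exact le_trans (min_le_min (iFun_le σ (τ • x)) (iFun_le τ x))
    ((IsDiscreteValuationRing.addVal B).map_add _ _)

theorem iFun_conj (σ τ : G) : iFun G B (τ * σ * τ⁻¹) = iFun G B σ := by
  have key : ∀ σ τ : G, iFun G B σ ≤ iFun G B (τ * σ * τ⁻¹) := by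
    intro σ τ
    rw [le_iFun_iff]
    intro x
    have h : (τ * σ * τ⁻¹) • x - x = τ • (σ • (τ⁻¹ • x) - τ⁻¹ • x) := by
      rw [smul_sub, smul_inv_smul, mul_smul, mul_smul]
    rw [h, addVal_smul]
    exact iFun_le σ _
  refine le_antisymm ?_ (key σ τ)
  have := key (τ * σ * τ⁻¹) τ⁻¹
  rwa [inv_inv, show τ⁻¹ * (τ * σ * τ⁻¹) * τ = σ by group] at this

variable (G B)

instance lowerGroup_normal (n : ℕ) : (lowerGroup G B n).Normal := by
  constructor
  intro σ hσ τ
  rw [mem_lowerGroup_iff_le_iFun] at hσ ⊢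
  rwa [iFun_conj]

/-- the filtration is separated: for a faithful action of a finite group the lower ramification
groups are eventually trivial. -/
theorem exists_lowerGroup_eq_bot [Finite G] [FaithfulSMul G B] : ∃ n : ℕ, lowerGroup G B n = ⊥ := by
  classical
  have hfin : ∀ σ : G, σ ≠ 1 → ∃ n : ℕ, iFun G B σ = n := by
    intro σ hσ
    have h : iFun G B σ ≠ ⊤ := fun h => hσ (iFun_eq_top_iff.mp h)
    exact ⟨(iFun G B σ).toNat, (ENat.natCast_toNat h).symm⟩
  have := Fintype.ofFinite G
  refine ⟨(Finset.univ.sup fun σ : G => (iFun G B σ).toNat) + 1, ?_⟩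
  rw [eq_bot_iff]
  intro σ hσ
  rw [Subgroup.mem_bot]
  by_contra hne
  obtain ⟨n, hn⟩ := hfin σ hne
  rw [mem_lowerGroup_iff_le_iFun, hn] at hσ
  have h1 : (iFun G B σ).toNat ≤ Finset.univ.sup fun σ : G => (iFun G B σ).toNat :=
    Finset.le_sup (f := fun σ : G => (iFun G B σ).toNat) (Finset.mem_univ σ)
  rw [hn, ENat.toNat_natCast] at h1
  have h2 : (Finset.univ.sup fun σ : G => (iFun G B σ).toNat) + 1 ≤ n := by exact_mod_cast hσ
  omega

end Action

end Fermat.Agent.S56x.Ram
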