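/-
P-S56, block (C)/(A) interface (helper53): the TAME STRUCTURE of the inertia group of a finite
group `G` acting faithfully on a discrete valuation ring `B` of residue characteristic `q`
(on top of helper42's `S56x/Ram/Lower.lean`; Serre, Local Fields IV §2, without completeness and
without generation hypotheses).

* `theta hϖ : lowerGroup G B 1 →* ResidueField B`, `σ ↦ σ ϖ / ϖ mod 𝔪` (Serre's `θ₀`);
* `tameKer G B` : the elements of the inertia group acting trivially on `𝔪 / 𝔪 ^ 2`; it contains the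
  kernel of `theta`;
* `pow_mem_lowerGroup_two`, `pow_mem_lowerGroup_succ` : `σ ∈ tameKer ⟹ σ ^ q ∈ G₁`,
  `σ ∈ G_i ⟹ σ ^ q ∈ G_{i+1}` (`i ≥ 1`), so `tameKer` is a `q`-group (`exists_pow_eq_one`);
* `exists_generator_mod_ker` : `G₀ / ker θ₀` is cyclic; `residue_unitOf_conj` : `θ₀ (g σ g⁻¹) = ḡ (θ₀ σ)`;
* `exists_mul_of_additive` : **any two additive characters of the inertia group with values in a
  field in which `q ≠ 0` are proportional** (`(F)` of `Local/UnipotentTangent.lean` at finite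
  level).
-/
import Mathlib
import Fermat.Agent.S56x.Ram.Lower

set_option autoImplicit false
set_option linter.unusedSectionVars false
set_option maxHeartbeats 400000
set_option linter.style.haveILetI false

namespace Fermat.Agent.S56x.Ram.TameStructure

open IsLocalRing Fermat.Agent.S56x.Ram

variable {G : Type*} [Group G] {B : Type*} [CommRing B] [IsDomain B] [IsDiscreteValuationRing B]
  [MulSemiringAction G B]

/-! ### The action on the powers of the maximal ideal -/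

theorem smul_mem_pow (σ : G) {j : ℕ} {y : B} (hy : y ∈ maximalIdeal B ^ j) :
    σ • y ∈ maximalIdeal B ^ j := by
  rw [mem_maximalIdeal_pow_iff] at hy ⊢
  rwa [addVal_smul]

/-- if `σ - 1` maps `B` into `𝔪 ^ a` and `𝔪` into `𝔪 ^ (1 + e)`, `e ≤ a`, then it maps `𝔪 ^ j` into
`𝔪 ^ (j + e)`. -/
theorem sub_mem_pow_add (σ : G) {a e : ℕ} (hea : e ≤ a)
    (hB : ∀ x : B, σ • x - x ∈ maximalIdeal B ^ a)
    (hm : ∀ x ∈ maximalIdeal B, σ • x - x ∈ maximalIdeal B ^ (1 + e)) :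
    ∀ (j : ℕ) (y : B), y ∈ maximalIdeal B ^ j → σ • y - y ∈ maximalIdeal B ^ (j + e) := by
  intro j
  induction j with
  | zero =>
    intro y _
    rw [zero_add]
    exact Ideal.pow_le_pow_right hea (hB y)
  | succ j ih =>
    intro y hy
    rw [pow_succ] at hy
    refine Submodule.mul_induction_on hy ?_ ?_
    · intro u hu v hv
      have e1 : σ • (u * v) - u * v = σ • u * (σ • v - v) + (σ • u - u) * v := by
        rw [smul_mul']; ring
      rw [e1]
      refine Ideal.add_mem _ ?_ ?_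
      · have h1 := Ideal.mul_mem_mul (smul_mem_pow σ hu) (hm v hv)
        rw [← pow_add] at h1
        have e2 : j + (1 + e) = j + 1 + e := by ring
        rwa [e2] at h1
      · have h1 := Ideal.mul_mem_mul (ih u hu) (show v ∈ maximalIdeal B ^ 1 by rwa [pow_one])
        rw [← pow_add] at h1
        have e2 : j + e + 1 = j + 1 + e := by ring
        rwa [e2] at h1
    · intro u v hu hv
      have e1 : σ • (u + v) - (u + v) = (σ • u - u) + (σ • v - v) := by
        rw [smul_add]; ring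
      rw [e1]
      exact Ideal.add_mem _ hu hv

/-- the first order expansion of `σ ^ n`. -/
theorem pow_smul_sub (σ : G) {a c : ℕ} (hB : ∀ x : B, σ • x - x ∈ maximalIdeal B ^ a)
    (hS : ∀ y ∈ maximalIdeal B ^ a, σ • y - y ∈ maximalIdeal B ^ c) :
    ∀ (n : ℕ) (x : B), σ ^ n • x - x - n • (σ • x - x) ∈ maximalIdeal B ^ c := by
  intro n
  induction n with
  | zero =>
    intro x
    simp
  | succ n ih =>
    intro x
    have hσ : σ ∈ lowerGroup G B a := mem_lowerGroup.mpr hB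
    have hw : σ ^ n • x - x ∈ maximalIdeal B ^ a :=
      mem_lowerGroup.mp ((lowerGroup G B a).pow_mem hσ n) x
    have e1 : σ ^ (n + 1) • x - x - (n + 1) • (σ • x - x) =
        (σ • (σ ^ n • x - x) - (σ ^ n • x - x)) + (σ ^ n • x - x - n • (σ • x - x)) := by
      rw [pow_succ', mul_smul, succ_nsmul]
      generalize σ ^ n • x = w
      rw [smul_sub σ]
      ring
    rw [e1]
    exact Ideal.add_mem _ (hS _ hw) (ih x)

/-! ### The subgroup acting trivially on `𝔪 / 𝔪 ^ 2` -/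

variable (G B)

/-- the elements of the inertia group acting trivially on `𝔪 / 𝔪 ^ 2`. -/
def tameKer : Subgroup G where
  carrier := {σ | σ ∈ lowerGroup G B 1 ∧ ∀ x ∈ maximalIdeal B, σ • x - x ∈ maximalIdeal B ^ 2}
  one_mem' := ⟨(lowerGroup G B 1).one_mem, fun x _ => by simp⟩
  mul_mem' := by
    rintro σ τ ⟨hσ, hσ2⟩ ⟨hτ, hτ2⟩
    refine ⟨(lowerGroup G B 1).mul_mem hσ hτ, fun x hx => ?_⟩
    have e : (σ * τ) • x - x = σ • (τ • x - x) + (σ • x - x) := by
      rw [mul_smul, smul_sub]; ring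
    rw [e]
    exact Ideal.add_mem _ (smul_mem_pow σ (hτ2 x hx)) (hσ2 x hx)
  inv_mem' := by
    rintro σ ⟨hσ, hσ2⟩
    refine ⟨(lowerGroup G B 1).inv_mem hσ, fun x hx => ?_⟩
    have hy : σ⁻¹ • x ∈ maximalIdeal B := by
      have := smul_mem_pow σ⁻¹ (show x ∈ maximalIdeal B ^ 1 by rwa [pow_one])
      rwa [pow_one] at this
    have e : σ⁻¹ • x - x = -(σ • (σ⁻¹ • x) - σ⁻¹ • x) := by
      rw [smul_inv_smul]; ring
    rw [e]
    exact Ideal.neg_mem_iff _ |>.mpr (hσ2 _ hy)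

variable {G B}

theorem mem_tameKer {σ : G} :
    σ ∈ tameKer G B ↔
      σ ∈ lowerGroup G B 1 ∧ ∀ x ∈ maximalIdeal B, σ • x - x ∈ maximalIdeal B ^ 2 := Iff.rfl

theorem tameKer_le : tameKer G B ≤ lowerGroup G B 1 := fun _ h => h.1

theorem lowerGroup_two_le_tameKer : lowerGroup G B 2 ≤ tameKer G B := fun σ hσ =>
  ⟨lowerGroup_antitone G B (by norm_num) hσ, fun x _ => mem_lowerGroup.mp hσ x⟩

variable {q : ℕ}

/-- `σ ∈ tameKer ⟹ σ ^ q ∈ G₁`. -/
theorem pow_mem_lowerGroup_two (hqB : (q : B) ∈ maximalIdeal B) {σ : G}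
    (hσ : σ ∈ tameKer G B) : σ ^ q ∈ lowerGroup G B 2 := by
  rw [mem_lowerGroup]
  intro x
  have hB : ∀ x : B, σ • x - x ∈ maximalIdeal B ^ 1 := mem_lowerGroup.mp hσ.1
  have hS : ∀ y ∈ maximalIdeal B ^ 1, σ • y - y ∈ maximalIdeal B ^ 2 := fun y hy =>
    hσ.2 y (by rwa [pow_one] at hy)
  have h1 := pow_smul_sub σ hB hS q x
  have h2 : q • (σ • x - x) ∈ maximalIdeal B ^ 2 := by
    rw [nsmul_eq_mul, pow_two]
    exact Ideal.mul_mem_mul hqB (by simpa using hB x)
  have e : σ ^ q • x - x = (σ ^ q • x - x - q • (σ • x - x)) + q • (σ • x - x) := by ring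
  rw [e]
  exact Ideal.add_mem _ h1 h2

/-- `σ ∈ G_i ⟹ σ ^ q ∈ G_{i+1}` for `i ≥ 1`. -/
theorem pow_mem_lowerGroup_succ (hqB : (q : B) ∈ maximalIdeal B) {i : ℕ} (hi : 1 ≤ i) {σ : G}
    (hσ : σ ∈ lowerGroup G B (i + 1)) : σ ^ q ∈ lowerGroup G B (i + 2) := by
  rw [mem_lowerGroup]
  intro x
  have hB : ∀ x : B, σ • x - x ∈ maximalIdeal B ^ (i + 1) := mem_lowerGroup.mp hσ
  have hm : ∀ x ∈ maximalIdeal B, σ • x - x ∈ maximalIdeal B ^ (1 + i) := fun x _ => by
    rw [add_comm]; exact hB x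
  have hS : ∀ y ∈ maximalIdeal B ^ (i + 1), σ • y - y ∈ maximalIdeal B ^ (i + 2) := fun y hy =>
    Ideal.pow_le_pow_right (by omega) (sub_mem_pow_add σ (by omega) hB hm (i + 1) y hy)
  have h1 := pow_smul_sub σ hB hS q x
  have h2 : q • (σ • x - x) ∈ maximalIdeal B ^ (i + 2) := by
    rw [nsmul_eq_mul]
    have := Ideal.mul_mem_mul hqB (hB x)
    rwa [← pow_succ'] at this
  have e : σ ^ q • x - x = (σ ^ q • x - x - q • (σ • x - x)) + q • (σ • x - x) := by ring
  rw [e]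
  exact Ideal.add_mem _ h1 h2

/-- iterating: `σ ∈ G₁ ⟹ σ ^ (q ^ n) ∈ G_{1+n}`. -/
theorem pow_pow_mem_lowerGroup (hqB : (q : B) ∈ maximalIdeal B) {σ : G}
    (hσ : σ ∈ lowerGroup G B 2) (n : ℕ) : σ ^ q ^ n ∈ lowerGroup G B (n + 2) := by
  induction n with
  | zero => simpa using hσ
  | succ n ih =>
    rw [pow_succ, pow_mul]
    have := pow_mem_lowerGroup_succ hqB (i := n + 1) (by omega) ih
    exact this

/-- **`tameKer` is a `q`-group.** -/
theorem exists_pow_eq_one [Finite G] [FaithfulSMul G B] (hqB : (q : B) ∈ maximalIdeal B) {σ : G}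
    (hσ : σ ∈ tameKer G B) : ∃ n : ℕ, σ ^ q ^ n = 1 := by
  obtain ⟨N, hN⟩ := exists_lowerGroup_eq_bot G B
  have h1 := pow_pow_mem_lowerGroup hqB (pow_mem_lowerGroup_two hqB hσ) N
  have h2 : (σ ^ q) ^ q ^ N ∈ lowerGroup G B N :=
    lowerGroup_antitone G B (by omega) h1
  rw [hN, Subgroup.mem_bot] at h2
  refine ⟨N + 1, ?_⟩
  rw [pow_succ', pow_mul]
  exact h2

/-! ### Serre's `θ₀` -/

section Theta

variable {ϖ : B} (hϖ : Irreducible ϖ)

include hϖ in
theorem exists_unit_smul (σ : G) : ∃ u : Bˣ, σ • ϖ = u * ϖ := by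
  have h1 : Irreducible (σ • ϖ) :=
    (MulEquiv.irreducible_iff (MulSemiringAction.toRingEquiv G B σ).toMulEquiv).mpr hϖ
  obtain ⟨u, hu⟩ := IsDiscreteValuationRing.associated_of_irreducible B hϖ h1
  exact ⟨u, by rw [← hu, mul_comm]⟩

/-- the unit `σ ϖ / ϖ`. -/
noncomputable def unitOf (σ : G) : Bˣ := Classical.choose (exists_unit_smul hϖ σ)

theorem smul_unif (σ : G) : σ • ϖ = unitOf hϖ σ * ϖ :=
  Classical.choose_spec (exists_unit_smul hϖ σ)

theorem unitOf_one : unitOf hϖ (1 : G) = 1 := by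
  have h := smul_unif hϖ (1 : G)
  rw [one_smul] at h
  have h2 : ((unitOf hϖ (1 : G) : Bˣ) : B) * ϖ = 1 * ϖ := by rw [one_mul]; exact h.symm
  exact Units.ext (mul_right_cancel₀ hϖ.ne_zero h2)

theorem unitOf_mul (σ τ : G) :
    ((unitOf hϖ (σ * τ) : Bˣ) : B) = σ • ((unitOf hϖ τ : Bˣ) : B) * unitOf hϖ σ := by
  have h := smul_unif hϖ (σ * τ)
  rw [mul_smul, smul_unif hϖ τ, smul_mul', smul_unif hϖ σ, ← mul_assoc] at h
  exact (mul_right_cancel₀ hϖ.ne_zero h).symm

/-- **Serre's `θ₀`** on the inertia group. -/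
noncomputable def theta : ↥(lowerGroup G B 1) →* ResidueField B where
  toFun σ := residue B (unitOf hϖ (σ : G))
  map_one' := by
    show residue B (unitOf hϖ (1 : G)) = 1
    rw [unitOf_one, Units.val_one, map_one]
  map_mul' σ τ := by
    show residue B (unitOf hϖ ((σ : G) * (τ : G))) = _
    rw [unitOf_mul, map_mul, mul_comm]
    congr 1
    rw [← sub_eq_zero, ← map_sub, residue_eq_zero_iff]
    have := mem_lowerGroup.mp σ.2 ((unitOf hϖ (τ : G) : Bˣ) : B)
    rwa [pow_one] at this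

theorem theta_apply (σ : ↥(lowerGroup G B 1)) :
    theta hϖ σ = residue B (unitOf hϖ (σ : G)) := rfl

/-- the kernel of `θ₀` acts trivially on `𝔪 / 𝔪 ^ 2`. -/
theorem mem_tameKer_of_theta_eq_one {σ : ↥(lowerGroup G B 1)} (h : theta hϖ σ = 1) :
    (σ : G) ∈ tameKer G B := by
  refine ⟨σ.2, fun x hx => ?_⟩
  rw [theta_apply, ← map_one (residue B), ← sub_eq_zero, ← map_sub, residue_eq_zero_iff] at h
  rw [hϖ.maximalIdeal_eq, Ideal.mem_span_singleton'] at hx
  obtain ⟨z, rfl⟩ := hx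
  have e : (σ : G) • (z * ϖ) - z * ϖ =
      ((σ : G) • z - z) * ((unitOf hϖ (σ : G) : Bˣ) : B) * ϖ +
        z * (((unitOf hϖ (σ : G) : Bˣ) : B) - 1) * ϖ := by
    rw [smul_mul', smul_unif hϖ]
    ring
  have hϖm : ϖ ∈ maximalIdeal B := hϖ.maximalIdeal_eq ▸ Ideal.mem_span_singleton_self ϖ
  rw [e, pow_two]
  refine Ideal.add_mem _ (Ideal.mul_mem_mul ?_ hϖm) (Ideal.mul_mem_mul ?_ hϖm)
  · apply Ideal.mul_mem_right
    have := mem_lowerGroup.mp σ.2 z
    rwa [pow_one] at this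
  · exact Ideal.mul_mem_left _ _ h

theorem ker_theta_le (σ : ↥(lowerGroup G B 1)) (h : σ ∈ (theta hϖ).ker) :
    (σ : G) ∈ tameKer G B :=
  mem_tameKer_of_theta_eq_one hϖ ((MonoidHom.mem_ker).mp h)

/-- **the tame quotient is cyclic**: there is `τ` in the inertia group such that every element
of the inertia group is a power of `τ` times an element of the kernel of `θ₀`. -/
theorem exists_generator_mod_ker [Finite G] :
    ∃ τ : ↥(lowerGroup G B 1), ∀ σ : ↥(lowerGroup G B 1),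
      ∃ n : ℤ, theta hϖ (σ * (τ ^ n)⁻¹) = 1 := by
  haveI : Finite ↥(lowerGroup G B 1) := Subtype.finite
  set θu : ↥(lowerGroup G B 1) →* (ResidueField B)ˣ := (theta hϖ).toHomUnits with hθu
  have hcoe : ∀ σ, ((θu σ : (ResidueField B)ˣ) : ResidueField B) = theta hϖ σ := fun σ => rfl
  haveI : Finite θu.range := Finite.of_surjective θu.rangeRestrict θu.rangeRestrict_surjective
  haveI : IsCyclic θu.range := isCyclic_subgroup_units θu.range
  obtain ⟨⟨g, ⟨τ, hτ⟩⟩, hg⟩ := IsCyclic.exists_generator (α := θu.range)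
  refine ⟨τ, fun σ => ?_⟩
  obtain ⟨n, hn⟩ := Subgroup.mem_zpowers_iff.mp (hg ⟨θu σ, σ, rfl⟩)
  refine ⟨n, ?_⟩
  have h1 : θu τ ^ n = θu σ := by
    have := congrArg (fun x : θu.range => (x : (ResidueField B)ˣ)) hn
    simp only [Subgroup.coe_zpow] at this
    rw [hτ]
    exact this
  have h2 : θu (σ * (τ ^ n)⁻¹) = 1 := by
    rw [map_mul, map_inv, map_zpow, h1, mul_inv_cancel]
  rw [← hcoe, h2, Units.val_one]

/-- **conjugation equivariance of `θ₀`**: `θ₀ (g σ g⁻¹) = ḡ (θ₀ σ)` for every `g : G`. -/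
theorem residue_unitOf_conj (g : G) {σ : G} (hσ : σ ∈ lowerGroup G B 1) :
    residue B (unitOf hϖ (g * σ * g⁻¹)) = residue B (g • ((unitOf hϖ σ : Bˣ) : B)) := by
  -- `g⁻¹ ϖ = v ϖ`
  set v : Bˣ := unitOf hϖ g⁻¹ with hv
  have h1 : g⁻¹ • ϖ = v * ϖ := smul_unif hϖ g⁻¹
  -- `ϖ = g v * g ϖ`
  have h2 : ϖ = g • (v : B) * g • ϖ := by
    have := congrArg (fun x => g • x) h1
    simp only [smul_inv_smul, smul_mul'] at this
    exact this
  have h3 : (g * σ * g⁻¹) • ϖ = g • (σ • (v : B)) * g • ((unitOf hϖ σ : Bˣ) : B) * g • ϖ := by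
    rw [mul_smul, mul_smul, h1, smul_mul' σ, smul_unif hϖ σ, smul_mul', smul_mul', mul_assoc]
  have h4 := smul_unif hϖ (g * σ * g⁻¹)
  -- multiply by `g v`
  have h5 : g • (v : B) * ((unitOf hϖ (g * σ * g⁻¹) : Bˣ) : B) =
      g • (σ • (v : B)) * g • ((unitOf hϖ σ : Bˣ) : B) := by
    have hgϖ : g • ϖ ≠ 0 := by
      intro h0
      have := congrArg (fun x => g⁻¹ • x) h0
      simp only [inv_smul_smul, smul_zero] at this
      exact hϖ.ne_zero this
    apply mul_right_cancel₀ hgϖ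
    have e1 : g • (v : B) * ((unitOf hϖ (g * σ * g⁻¹) : Bˣ) : B) * g • ϖ =
        ((unitOf hϖ (g * σ * g⁻¹) : Bˣ) : B) * (g • (v : B) * g • ϖ) := by ring
    rw [e1, ← h2, ← h4, h3]
  -- reduce mod `𝔪`
  have h6 : residue B (g • (σ • (v : B))) = residue B (g • (v : B)) := by
    rw [← sub_eq_zero, ← map_sub, residue_eq_zero_iff, ← smul_sub g]
    have := mem_lowerGroup.mp hσ (v : B)
    have h7 := smul_mem_pow g this
    rwa [pow_one] at h7
  have hgv : residue B (g • (v : B)) ≠ 0 := by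
    rw [Ne, residue_eq_zero_iff]
    intro hmem
    have h7 : g⁻¹ • (g • (v : B)) ∈ maximalIdeal B := by
      have := smul_mem_pow g⁻¹ (show g • (v : B) ∈ maximalIdeal B ^ 1 by rwa [pow_one])
      rwa [pow_one] at this
    rw [inv_smul_smul] at h7
    exact (IsLocalRing.mem_maximalIdeal _).mp h7 v.isUnit
  have h8 := congrArg (residue B) h5
  rw [map_mul, map_mul, h6] at h8
  exact mul_left_cancel₀ hgv h8

end Theta

/-! ### Additive characters of the inertia group -/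

section Additive

variable {k : Type*} [Field k]

/-- a map additive on a subgroup, as a monoid homomorphism to `Multiplicative k`. -/
noncomputable def addHomOfAdditive (H : Subgroup G) (f : G → k)
    (h : ∀ σ ∈ H, ∀ τ ∈ H, f (σ * τ) = f σ + f τ) : ↥H →* Multiplicative k :=
  MonoidHom.mk' (fun σ => Multiplicative.ofAdd (f (σ : G))) (fun σ τ => by
    show Multiplicative.ofAdd (f ((σ : G) * (τ : G))) = _
    rw [h _ σ.2 _ τ.2]; rfl)

theorem addHomOfAdditive_apply (H : Subgroup G) (f : G → k)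
    (h : ∀ σ ∈ H, ∀ τ ∈ H, f (σ * τ) = f σ + f τ) (σ : ↥H) :
    addHomOfAdditive H f h σ = Multiplicative.ofAdd (f (σ : G)) := rfl

/-- a homomorphism from the inertia group to the additive group of a field in which `q ≠ 0`
kills `tameKer`. -/
theorem hom_eq_one_of_mem_tameKer [Finite G] [FaithfulSMul G B]
    (hqB : (q : B) ∈ maximalIdeal B) (hqk : (q : k) ≠ 0)
    (φ : ↥(lowerGroup G B 1) →* Multiplicative k) {σ : ↥(lowerGroup G B 1)}
    (hσ : (σ : G) ∈ tameKer G B) : φ σ = 1 := by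
  obtain ⟨n, hn⟩ := exists_pow_eq_one hqB hσ
  have h1 : σ ^ q ^ n = 1 := Subtype.ext (by simpa using hn)
  have h2 : φ σ ^ q ^ n = 1 := by rw [← map_pow, h1, map_one]
  have h3 : (q ^ n) • Multiplicative.toAdd (φ σ) = 0 := by
    have := congrArg Multiplicative.toAdd h2
    simpa using this
  rw [nsmul_eq_mul, Nat.cast_pow] at h3
  have h4 : Multiplicative.toAdd (φ σ) = 0 :=
    (mul_eq_zero.mp h3).resolve_left (pow_ne_zero n hqk)
  exact Multiplicative.toAdd.injective h4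

/-- **any two additive characters of the inertia group of a finite group acting faithfully on a
discrete valuation ring of residue characteristic `q`, with values in a field in which `q ≠ 0`,
are proportional.** -/
theorem exists_mul_of_additive [Finite G] [FaithfulSMul G B]
    (hqB : (q : B) ∈ maximalIdeal B) (hqk : (q : k) ≠ 0) (f₁ f₂ : G → k)
    (h₁ : ∀ σ ∈ lowerGroup G B 1, ∀ τ ∈ lowerGroup G B 1, f₁ (σ * τ) = f₁ σ + f₁ τ)
    (h₂ : ∀ σ ∈ lowerGroup G B 1, ∀ τ ∈ lowerGroup G B 1, f₂ (σ * τ) = f₂ σ + f₂ τ)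
    (hne : ∃ σ ∈ lowerGroup G B 1, f₁ σ ≠ 0) :
    ∃ z : k, ∀ σ ∈ lowerGroup G B 1, f₂ σ = z * f₁ σ := by
  obtain ⟨ϖ, hϖ⟩ := IsDiscreteValuationRing.exists_irreducible B
  obtain ⟨τ, hτ⟩ := exists_generator_mod_ker (G := G) hϖ
  -- every additive map is determined by its value at `τ`
  have key : ∀ σ : ↥(lowerGroup G B 1), ∃ n : ℤ, ∀ (f : G → k)
      (_ : ∀ σ ∈ lowerGroup G B 1, ∀ τ ∈ lowerGroup G B 1, f (σ * τ) = f σ + f τ),
        f (σ : G) = n • f (τ : G) := by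
    intro σ
    obtain ⟨n, hn⟩ := hτ σ
    refine ⟨n, fun f h => ?_⟩
    set φ := addHomOfAdditive (lowerGroup G B 1) f h with hφ
    have h1 : φ (σ * (τ ^ n)⁻¹) = 1 :=
      hom_eq_one_of_mem_tameKer hqB hqk φ (mem_tameKer_of_theta_eq_one hϖ hn)
    rw [map_mul, map_inv, map_zpow, mul_inv_eq_one] at h1
    have h2 := congrArg Multiplicative.toAdd h1
    rw [toAdd_zpow] at h2
    exact h2
  have hτ1 : f₁ (τ : G) ≠ 0 := by
    intro h0
    obtain ⟨σ, hσ, hσ0⟩ := hne
    obtain ⟨n, hn⟩ := key ⟨σ, hσ⟩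
    apply hσ0
    have := hn f₁ h₁
    rw [h0, smul_zero] at this
    exact this
  refine ⟨f₂ (τ : G) / f₁ (τ : G), fun σ hσ => ?_⟩
  obtain ⟨n, hn⟩ := key ⟨σ, hσ⟩
  have e1 : f₁ σ = n • f₁ (τ : G) := hn f₁ h₁
  have e2 : f₂ σ = n • f₂ (τ : G) := hn f₂ h₂
  rw [e1, e2, zsmul_eq_mul, zsmul_eq_mul]
  field_simp

end Additive

end Fermat.Agent.S56x.Ram.TameStructure
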