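import Mathlib

/-!
helper74 (P-S56, block (A), file RAM-0 of helper35's blueprint).  ABSTRACT ramification theory on a
finite group in FONTAINE's normalisation.

A `RamDatum G` is a function `i : G → ℝ≥0∞` with the formal properties of the `K`-normalised
`i_{L/K}(s) = v_K(s α - α)` (`O_L = O_K[α]`, values in `(1/e_L) ℤ ∪ {∞}`).

* `lowerGroup D r = {s | r ≤ i s}` (Fontaine's `G_{(r)}`), normal, antitone, `⊤` for `r ≤ 0`.
* `Phi D r = ∑ s, min (r, i s)` : strictly increasing continuous bijection of `ℝ`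
  (`= |G| r` for `r ≤ 0`), `PhiIso`, `Psi`, `upperGroup D v = lowerGroup D (Psi D v)` (`G^{(v)}`).
* `iMax`, `uMax = Phi iMax`, `diffExp = ∑ s ≠ 1, i s` (valuation of the different),
  `uMax = iMax + diffExp`, `upperGroup v = ⊥ ↔ uMax < v` (`v > 0`).
* `QuotRel D N D'` : the `K`-normalised Herbrand relation `i'(σ) = ∑_{s ↦ σ} i s` (plain sum);
  consequences: `Phi_eq_comp` (transitivity), `map_lowerGroup` (Herbrand), `map_upperGroup`,
  `uMax_quotient_le`, `upperGroup_restrict`, `uMax_eq_max_tower`, compositum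
  `uMax_eq_max_of_inf_eq_bot`.
* tame: `e0`, `Phi_le`, `uMax_le_one_of_tame`; single break `Phi_of_forall_leE`.
-/

set_option autoImplicit false
set_option linter.unusedSectionVars false

open Finset
open scoped ENNReal

namespace Fermat.Agent.S56x.Ram

/-- `min a x` for `a : ℝ≥0∞`, `x : ℝ`. -/
noncomputable def tr (a : ℝ≥0∞) (x : ℝ) : ℝ :=
  if a = ⊤ then x else min a.toReal x

theorem tr_top (x : ℝ) : tr ⊤ x = x := if_pos rfl

theorem tr_coe (c : NNReal) (x : ℝ) : tr (c : ℝ≥0∞) x = min (c : ℝ) x := by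
  unfold tr
  rw [if_neg ENNReal.coe_ne_top, ENNReal.coe_toReal]

theorem tr_zero {x : ℝ} (hx : 0 ≤ x) : tr 0 x = 0 := by
  unfold tr
  rw [if_neg ENNReal.zero_ne_top, ENNReal.toReal_zero, min_eq_left hx]

theorem tr_le (a : ℝ≥0∞) (x : ℝ) : tr a x ≤ x := by
  unfold tr
  split_ifs
  · exact le_rfl
  · exact min_le_right _ _

theorem tr_of_nonpos (a : ℝ≥0∞) {x : ℝ} (hx : x ≤ 0) : tr a x = x := by
  unfold tr
  split_ifs
  · rfl
  · exact min_eq_right (hx.trans ENNReal.toReal_nonneg)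

theorem tr_nonneg (a : ℝ≥0∞) {x : ℝ} (hx : 0 ≤ x) : 0 ≤ tr a x := by
  unfold tr
  split_ifs
  · exact hx
  · exact le_min ENNReal.toReal_nonneg hx

theorem tr_mono (a : ℝ≥0∞) : Monotone (tr a) := by
  intro x y hxy
  unfold tr
  split_ifs
  · exact hxy
  · exact min_le_min le_rfl hxy

theorem tr_mono_left {a b : ℝ≥0∞} (hab : a ≤ b) (x : ℝ) : tr a x ≤ tr b x := by
  induction b using ENNReal.recTopCoe with
  | top => rw [tr_top]; exact tr_le a x
  | coe c =>
    lift a to NNReal using ne_top_of_le_ne_top ENNReal.coe_ne_top hab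
    rw [tr_coe, tr_coe]
    exact min_le_min (by exact_mod_cast hab) le_rfl

theorem tr_continuous (a : ℝ≥0∞) : Continuous (tr a) := by
  unfold tr
  split_ifs
  · exact continuous_id
  · exact continuous_const.min continuous_id

/-- `(x : ℝ) ≤ (a : ℝ≥0∞)`. -/
def leE (x : ℝ) (a : ℝ≥0∞) : Prop := a = ⊤ ∨ x ≤ a.toReal

theorem leE_top (x : ℝ) : leE x ⊤ := Or.inl rfl

theorem leE_coe (x : ℝ) (c : NNReal) : leE x (c : ℝ≥0∞) ↔ x ≤ (c : ℝ) := by
  unfold leE
  rw [ENNReal.coe_toReal]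
  simp

theorem leE_of_nonpos {x : ℝ} (hx : x ≤ 0) (a : ℝ≥0∞) : leE x a :=
  Or.inr (hx.trans ENNReal.toReal_nonneg)

theorem leE_mono {x y : ℝ} {a b : ℝ≥0∞} (hxy : y ≤ x) (hab : a ≤ b) (h : leE x a) :
    leE y b := by
  induction b using ENNReal.recTopCoe with
  | top => exact leE_top y
  | coe c =>
    lift a to NNReal using ne_top_of_le_ne_top ENNReal.coe_ne_top hab
    rw [leE_coe] at h ⊢
    have : (a : ℝ) ≤ c := by exact_mod_cast hab
    linarith

theorem leE_min {x : ℝ} {a b : ℝ≥0∞} : leE x (min a b) ↔ leE x a ∧ leE x b := by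
  constructor
  · intro h
    exact ⟨leE_mono le_rfl (min_le_left a b) h, leE_mono le_rfl (min_le_right a b) h⟩
  · rintro ⟨ha, hb⟩
    rcases le_total a b with hab | hab
    · rwa [min_eq_left hab]
    · rwa [min_eq_right hab]

theorem tr_eq_self_iff (a : ℝ≥0∞) (x : ℝ) : tr a x = x ↔ leE x a := by
  unfold tr leE
  split_ifs with h
  · simp [h]
  · simp [h]

theorem tr_tr (a : ℝ≥0∞) (x y : ℝ) : tr a (min x y) = min (tr a x) y := by
  unfold tr
  split_ifs
  · rfl
  · rw [min_assoc]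

theorem tr_min (a b : ℝ≥0∞) (x : ℝ) : tr (min a b) x = min (tr a x) (tr b x) := by
  rcases le_total a b with hab | hab
  · rw [min_eq_left hab, min_eq_left (tr_mono_left hab x)]
  · rw [min_eq_right hab, min_eq_right (tr_mono_left hab x)]

theorem tr_min_coe (a : ℝ≥0∞) (c : NNReal) (x : ℝ) :
    tr (min a (c : ℝ≥0∞)) x = tr a (min (c : ℝ) x) := by
  induction a using ENNReal.recTopCoe with
  | top => rw [min_eq_right le_top, tr_top, tr_coe]
  | coe k =>
    have : min (k : ℝ≥0∞) (c : ℝ≥0∞) = ((min k c : NNReal) : ℝ≥0∞) := by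
      rcases le_total k c with h | h
      · rw [min_eq_left h, min_eq_left (by exact_mod_cast h)]
      · rw [min_eq_right h, min_eq_right (by exact_mod_cast h)]
    rw [this, tr_coe, tr_coe, NNReal.coe_min, min_assoc]

theorem toReal_eq_tr {a : ℝ≥0∞} (ha : a ≠ ⊤) {x : ℝ} (hx : a.toReal ≤ x) : a.toReal = tr a x := by
  unfold tr
  rw [if_neg ha, min_eq_left hx]

theorem tr_eq_toReal_of_ne_top {a : ℝ≥0∞} (ha : a ≠ ⊤) {x : ℝ} (hx : a.toReal ≤ x) :
    tr a x = a.toReal := (toReal_eq_tr ha hx).symm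

/-- The formal properties of the `K`-normalised function `i_{L/K}` of a finite Galois extension
of local fields (Fontaine's normalisation). -/
structure RamDatum (G : Type*) [Group G] where
  /-- the function `i_{L/K}` -/
  i : G → ℝ≥0∞
  i_eq_top : ∀ s, i s = ⊤ ↔ s = 1
  i_mul : ∀ s t, min (i s) (i t) ≤ i (s * t)
  i_inv : ∀ s, i s⁻¹ = i s
  i_conj : ∀ s t, i (t * s * t⁻¹) = i s

namespace RamDatum

variable {G : Type*} [Group G] (D : RamDatum G)

theorem i_one : D.i 1 = ⊤ := (D.i_eq_top 1).2 rfl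

theorem i_ne_top {s : G} (hs : s ≠ 1) : D.i s ≠ ⊤ := fun h => hs ((D.i_eq_top s).1 h)

/-- Fontaine's lower numbering ramification group `G_{(r)} = {s | r ≤ i s}`. -/
def lowerGroup (r : ℝ) : Subgroup G where
  carrier := {s | leE r (D.i s)}
  one_mem' := by
    show leE r (D.i 1)
    rw [D.i_one]
    exact leE_top _
  mul_mem' := by
    intro s t hs ht
    exact leE_mono le_rfl (D.i_mul s t) (leE_min.2 ⟨hs, ht⟩)
  inv_mem' := by
    intro s hs
    show leE r (D.i s⁻¹)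
    rw [D.i_inv]
    exact hs

theorem mem_lowerGroup {r : ℝ} {s : G} : s ∈ D.lowerGroup r ↔ leE r (D.i s) := Iff.rfl

theorem mem_lowerGroup_iff {r : ℝ} {s : G} (hs : s ≠ 1) :
    s ∈ D.lowerGroup r ↔ r ≤ (D.i s).toReal := by
  rw [mem_lowerGroup]
  unfold leE
  simp [D.i_ne_top hs]

instance (r : ℝ) : (D.lowerGroup r).Normal where
  conj_mem s hs t := by
    rw [mem_lowerGroup] at hs ⊢
    rwa [D.i_conj]

theorem lowerGroup_antitone : Antitone D.lowerGroup := by
  intro u v huv s hs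
  rw [mem_lowerGroup] at hs ⊢
  exact leE_mono huv le_rfl hs

theorem lowerGroup_eq_top {r : ℝ} (hr : r ≤ 0) : D.lowerGroup r = ⊤ := by
  rw [eq_top_iff]
  intro s _
  exact leE_of_nonpos hr _

/-- ultrametric inequality: if `i (s t) ≤ i s` then `i (s t) = min (i t) (i s)`. -/
theorem i_mul_eq_min {s t : G} (h : D.i (s * t) ≤ D.i s) : D.i (s * t) = min (D.i t) (D.i s) := by
  apply le_antisymm
  · refine le_min ?_ h
    by_contra hlt
    rw [not_le] at hlt
    have h1 := D.i_mul s⁻¹ (s * t)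
    rw [inv_mul_cancel_left, D.i_inv] at h1
    have h2 : D.i (s * t) ≤ min (D.i s) (D.i (s * t)) := le_min h le_rfl
    exact absurd (h2.trans h1) (not_le.2 hlt)
  · rw [min_comm]
    exact D.i_mul s t

/-- The restriction of a ramification datum to a subgroup (same top field, bigger base field,
SAME normalisation of the valuation). -/
def restrict (N : Subgroup G) : RamDatum N where
  i t := D.i (t : G)
  i_eq_top t := by rw [D.i_eq_top]; exact OneMemClass.coe_eq_one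
  i_mul s t := D.i_mul s t
  i_inv t := D.i_inv t
  i_conj s t := D.i_conj s t

@[simp] theorem restrict_i (N : Subgroup G) (t : N) : (D.restrict N).i t = D.i (t : G) := rfl

theorem lowerGroup_restrict (N : Subgroup G) (r : ℝ) :
    (D.restrict N).lowerGroup r = (D.lowerGroup r).subgroupOf N := by
  ext t
  rfl

/-! ### Herbrand's function -/

section Phi

variable [Fintype G]

/-- **Herbrand's function** in Fontaine's normalisation: `Φ(r) = ∑_s min (r, i s)`. -/
noncomputable def Phi (r : ℝ) : ℝ := ∑ s : G, tr (D.i s) r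

theorem Phi_mono : Monotone D.Phi := fun _ _ hxy =>
  Finset.sum_le_sum fun s _ => tr_mono (D.i s) hxy

theorem Phi_continuous : Continuous D.Phi :=
  continuous_finsetSum _ fun s _ => tr_continuous (D.i s)

/-- the term of the neutral element makes `Φ` strictly increasing. -/
theorem Phi_sub_le {x y : ℝ} (hxy : x ≤ y) : y - x ≤ D.Phi y - D.Phi x := by
  unfold Phi
  rw [← Finset.sum_sub_distrib]
  have h1 : y - x = tr (D.i 1) y - tr (D.i 1) x := by rw [D.i_one, tr_top, tr_top]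
  rw [h1]
  exact Finset.single_le_sum (f := fun s => tr (D.i s) y - tr (D.i s) x)
    (fun s _ => sub_nonneg.2 (tr_mono (D.i s) hxy)) (Finset.mem_univ 1)

theorem Phi_strictMono : StrictMono D.Phi := by
  intro x y hxy
  have := D.Phi_sub_le hxy.le
  linarith

theorem Phi_of_nonpos {r : ℝ} (hr : r ≤ 0) : D.Phi r = Fintype.card G * r := by
  unfold Phi
  rw [Finset.sum_congr rfl fun s _ => tr_of_nonpos (D.i s) hr, Finset.sum_const, Finset.card_univ,
    nsmul_eq_mul]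

@[simp] theorem Phi_zero : D.Phi 0 = 0 := by
  rw [D.Phi_of_nonpos le_rfl, mul_zero]

theorem le_Phi {r : ℝ} (hr : 0 ≤ r) : r ≤ D.Phi r := by
  have := D.Phi_sub_le hr
  rw [D.Phi_zero] at this
  linarith

theorem Phi_le_self_of_nonpos {r : ℝ} (hr : r ≤ 0) : D.Phi r ≤ r := by
  have := D.Phi_sub_le hr
  rw [D.Phi_zero] at this
  linarith

theorem Phi_nonneg {r : ℝ} (hr : 0 ≤ r) : 0 ≤ D.Phi r := hr.trans (D.le_Phi hr)

theorem Phi_pos {r : ℝ} (hr : 0 < r) : 0 < D.Phi r := hr.trans_le (D.le_Phi hr.le)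

theorem Phi_surjective : Function.Surjective D.Phi := by
  apply D.Phi_continuous.surjective
  · refine Filter.tendsto_atTop_mono' _ ?_ Filter.tendsto_id
    filter_upwards [Filter.eventually_ge_atTop (0 : ℝ)] with r hr
    exact D.le_Phi hr
  · refine Filter.tendsto_atBot_mono' _ ?_ Filter.tendsto_id
    filter_upwards [Filter.eventually_le_atBot (0 : ℝ)] with r hr
    exact D.Phi_le_self_of_nonpos hr

/-- Herbrand's function as an order isomorphism of `ℝ`. -/
noncomputable def PhiIso : ℝ ≃o ℝ :=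
  StrictMono.orderIsoOfSurjective D.Phi D.Phi_strictMono D.Phi_surjective

@[simp] theorem PhiIso_apply (r : ℝ) : D.PhiIso r = D.Phi r := rfl

/-- The inverse `Ψ` of Herbrand's function. -/
noncomputable def Psi (v : ℝ) : ℝ := D.PhiIso.symm v

@[simp] theorem Phi_Psi (v : ℝ) : D.Phi (D.Psi v) = v := D.PhiIso.apply_symm_apply v

@[simp] theorem Psi_Phi (r : ℝ) : D.Psi (D.Phi r) = r := D.PhiIso.symm_apply_apply r

theorem Psi_strictMono : StrictMono D.Psi := D.PhiIso.symm.strictMono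

@[simp] theorem Psi_zero : D.Psi 0 = 0 := by
  have := D.Psi_Phi 0
  rwa [D.Phi_zero] at this

theorem Phi_le_iff {r v : ℝ} : D.Phi r ≤ v ↔ r ≤ D.Psi v := by
  rw [← D.PhiIso_apply, Psi, ← D.PhiIso.le_symm_apply]

theorem le_Phi_iff {r v : ℝ} : v ≤ D.Phi r ↔ D.Psi v ≤ r := by
  rw [← D.PhiIso_apply, Psi, D.PhiIso.symm_apply_le]

theorem Phi_lt_iff {r v : ℝ} : D.Phi r < v ↔ r < D.Psi v := by
  rw [← not_le, ← not_le, D.le_Phi_iff]

theorem lt_Phi_iff {r v : ℝ} : v < D.Phi r ↔ D.Psi v < r := by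
  rw [← not_le, ← not_le, D.Phi_le_iff]

theorem Psi_nonneg {v : ℝ} (hv : 0 ≤ v) : 0 ≤ D.Psi v := by
  rw [← D.Psi_zero]
  exact D.Psi_strictMono.monotone hv

theorem Psi_pos {v : ℝ} (hv : 0 < v) : 0 < D.Psi v := by
  rw [← D.Psi_zero]
  exact D.Psi_strictMono hv

theorem Psi_le_self {v : ℝ} (hv : 0 ≤ v) : D.Psi v ≤ v := by
  have := D.le_Phi (D.Psi_nonneg hv)
  rwa [Phi_Psi] at this

/-- Fontaine's upper numbering ramification group `G^{(v)} = G_{(Ψ(v))}`. -/
noncomputable def upperGroup (v : ℝ) : Subgroup G := D.lowerGroup (D.Psi v)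

theorem mem_upperGroup {v : ℝ} {s : G} : s ∈ D.upperGroup v ↔ s ∈ D.lowerGroup (D.Psi v) :=
  Iff.rfl

theorem upperGroup_Phi (r : ℝ) : D.upperGroup (D.Phi r) = D.lowerGroup r := by
  unfold upperGroup
  rw [Psi_Phi]

theorem upperGroup_antitone : Antitone D.upperGroup := fun _ _ h =>
  D.lowerGroup_antitone (D.Psi_strictMono.monotone h)

instance (v : ℝ) : (D.upperGroup v).Normal := by
  unfold upperGroup
  infer_instance

theorem upperGroup_eq_top {v : ℝ} (hv : v ≤ 0) : D.upperGroup v = ⊤ := by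
  unfold upperGroup
  apply D.lowerGroup_eq_top
  rw [← D.Psi_zero]
  exact D.Psi_strictMono.monotone hv

/-! ### The largest breaks -/

/-- `max_{s ≠ 1} i s` (`0` for the trivial group). -/
noncomputable def iMax : ℝ :=
  Finset.univ.sup' ⟨(1 : G), Finset.mem_univ 1⟩ fun s => (D.i s).toReal

/-- the largest upper break `u_{L/K} = Φ(i_{L/K})` (Fontaine's numbering). -/
noncomputable def uMax : ℝ := D.Phi D.iMax

/-- `∑_{s ≠ 1} i s`: the `K`-normalised valuation of the different. -/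
noncomputable def diffExp : ℝ := ∑ s : G, (D.i s).toReal

theorem toReal_i_le_iMax (s : G) : (D.i s).toReal ≤ D.iMax :=
  Finset.le_sup' (fun s => (D.i s).toReal) (Finset.mem_univ s)

theorem iMax_nonneg : 0 ≤ D.iMax := ENNReal.toReal_nonneg.trans (D.toReal_i_le_iMax 1)

theorem uMax_nonneg : 0 ≤ D.uMax := D.Phi_nonneg D.iMax_nonneg

theorem iMax_le_uMax : D.iMax ≤ D.uMax := D.le_Phi D.iMax_nonneg

theorem exists_i_eq_iMax : ∃ s : G, (D.i s).toReal = D.iMax := by
  obtain ⟨s, _, hs⟩ := Finset.exists_mem_eq_sup' ⟨(1 : G), Finset.mem_univ 1⟩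
    fun s => (D.i s).toReal
  exact ⟨s, hs.symm⟩

theorem iMax_le_iff {c : ℝ} (hc : 0 ≤ c) : D.iMax ≤ c ↔ ∀ s : G, s ≠ 1 → (D.i s).toReal ≤ c := by
  constructor
  · intro h s _
    exact (D.toReal_i_le_iMax s).trans h
  · intro h
    apply Finset.sup'_le
    intro s _
    by_cases hs : s = 1
    · rw [hs, D.i_one, ENNReal.toReal_top]
      exact hc
    · exact h s hs

theorem lowerGroup_eq_bot_of_lt {r : ℝ} (hr : D.iMax < r) : D.lowerGroup r = ⊥ := by
  rw [eq_bot_iff]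
  intro s hs
  rw [Subgroup.mem_bot]
  by_contra hs1
  rw [D.mem_lowerGroup_iff hs1] at hs
  have := D.toReal_i_le_iMax s
  linarith

theorem lowerGroup_eq_bot_iff {r : ℝ} (hr : 0 < r) : D.lowerGroup r = ⊥ ↔ D.iMax < r := by
  refine ⟨fun h => ?_, D.lowerGroup_eq_bot_of_lt⟩
  by_contra hle
  rw [not_lt] at hle
  obtain ⟨s, hs⟩ := D.exists_i_eq_iMax
  have hs1 : s ≠ 1 := by
    rintro rfl
    rw [D.i_one, ENNReal.toReal_top] at hs
    linarith
  have hmem : s ∈ D.lowerGroup r := by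
    rw [D.mem_lowerGroup_iff hs1, hs]
    exact hle
  rw [h, Subgroup.mem_bot] at hmem
  exact hs1 hmem

theorem upperGroup_eq_bot_iff {v : ℝ} (hv : 0 < v) : D.upperGroup v = ⊥ ↔ D.uMax < v := by
  unfold upperGroup uMax
  rw [D.lowerGroup_eq_bot_iff (D.Psi_pos hv), D.Phi_lt_iff]

theorem upperGroup_eq_bot_of_lt {v : ℝ} (hv : D.uMax < v) : D.upperGroup v = ⊥ :=
  (D.upperGroup_eq_bot_iff (D.uMax_nonneg.trans_lt hv)).2 hv

theorem uMax_le_iff {v₀ : ℝ} (hv : 0 ≤ v₀) :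
    D.uMax ≤ v₀ ↔ ∀ v, v₀ < v → D.upperGroup v = ⊥ := by
  constructor
  · intro h v hv'
    exact D.upperGroup_eq_bot_of_lt (h.trans_lt hv')
  · intro h
    by_contra hlt
    rw [not_le] at hlt
    have := (D.upperGroup_eq_bot_iff (hv.trans_lt hlt)).1 (h _ hlt)
    exact lt_irrefl _ this

/-- `Φ(r) = r + v(𝔇)` beyond the last break. -/
theorem Phi_of_iMax_le {r : ℝ} (hr : D.iMax ≤ r) : D.Phi r = r + D.diffExp := by
  classical
  unfold Phi diffExp
  rw [← Finset.add_sum_erase _ _ (Finset.mem_univ (1 : G)),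
    ← Finset.add_sum_erase _ (fun s => (D.i s).toReal) (Finset.mem_univ (1 : G)),
    D.i_one, tr_top, ENNReal.toReal_top, zero_add]
  congr 1
  refine Finset.sum_congr rfl fun s hs => ?_
  have hs1 : s ≠ 1 := (Finset.mem_erase.1 hs).1
  exact tr_eq_toReal_of_ne_top (D.i_ne_top hs1) ((D.toReal_i_le_iMax s).trans hr)

/-- Fontaine's formula `u_{L/K} = i_{L/K} + v_K(𝔇_{L/K})`. -/
theorem uMax_eq : D.uMax = D.iMax + D.diffExp := D.Phi_of_iMax_le le_rfl

/-- if `G = G_{(b)}` then `Φ(r) = |G| r` for `r ≤ b`. -/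
theorem Phi_of_forall_leE {b : ℝ} (hall : ∀ s : G, leE b (D.i s)) {r : ℝ} (hr : r ≤ b) :
    D.Phi r = Fintype.card G * r := by
  unfold Phi
  rw [Finset.sum_congr rfl fun s _ =>
    (tr_eq_self_iff (D.i s) r).2 (leE_mono hr le_rfl (hall s)),
    Finset.sum_const, Finset.card_univ, nsmul_eq_mul]

open Classical in
/-- the order of the inertia group `{s | i s ≠ 0}`. -/
noncomputable def e0 : ℕ := (Finset.univ.filter fun s : G => D.i s ≠ 0).card

theorem e0_pos : 0 < D.e0 := by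
  classical
  unfold e0
  rw [Finset.card_pos]
  refine ⟨1, ?_⟩
  rw [Finset.mem_filter]
  exact ⟨Finset.mem_univ _, by rw [D.i_one]; exact ENNReal.top_ne_zero⟩

theorem Phi_le {r : ℝ} (hr : 0 ≤ r) : D.Phi r ≤ D.e0 * r := by
  classical
  unfold Phi e0
  rw [Finset.card_filter, Nat.cast_sum, Finset.sum_mul]
  refine Finset.sum_le_sum fun s _ => ?_
  by_cases h : D.i s = 0
  · rw [h, tr_zero hr]
    simp
  · rw [if_pos h]
    simpa using tr_le (D.i s) r

/-- **tame case**: if `i s ≤ 1/e` for `s ≠ 1` and the inertia group has order at most `e`, then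
`u_{L/K} ≤ 1`. -/
theorem uMax_le_one_of_tame {e : ℕ} (he : 0 < e) (hi : ∀ s : G, s ≠ 1 → (D.i s).toReal ≤ 1 / e)
    (hcard : D.e0 ≤ e) : D.uMax ≤ 1 := by
  have he' : (0 : ℝ) < e := Nat.cast_pos.2 he
  have h1 : D.iMax ≤ 1 / e := (D.iMax_le_iff (by positivity)).2 hi
  have h2 : (D.e0 : ℝ) ≤ e := by exact_mod_cast hcard
  calc D.uMax ≤ D.e0 * D.iMax := D.Phi_le D.iMax_nonneg
    _ ≤ e * (1 / e) := mul_le_mul h2 h1 D.iMax_nonneg he'.le
    _ = 1 := by field_simp

end Phi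

/-! ### Quotients -/

section Quotient

variable [Fintype G] (N : Subgroup G) [N.Normal] [Fintype N] [Fintype (G ⧸ N)]
  (D' : RamDatum (G ⧸ N))

open Classical in
/-- The fibre of `G → G ⧸ N` over `σ`. -/
noncomputable def fiber (σ : G ⧸ N) : Finset G := Finset.univ.filter fun s : G => (s : G ⧸ N) = σ

theorem mem_fiber {σ : G ⧸ N} {s : G} : s ∈ fiber N σ ↔ (s : G ⧸ N) = σ := by
  classical
  unfold fiber
  rw [Finset.mem_filter]
  exact ⟨fun h => h.2, fun h => ⟨Finset.mem_univ _, h⟩⟩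

theorem fiber_nonempty (σ : G ⧸ N) : (fiber N σ).Nonempty := by
  obtain ⟨s, hs⟩ := QuotientGroup.mk_surjective σ
  exact ⟨s, (mem_fiber N).2 hs⟩

/-- sums over a fibre are sums over `N`. -/
theorem sum_fiber {M : Type*} [AddCommMonoid M] (f : G → M) (s₀ : G) :
    ∑ s ∈ fiber N (s₀ : G ⧸ N), f s = ∑ t : N, f (s₀ * t) := by
  classical
  symm
  refine Finset.sum_bij (fun (t : N) _ => s₀ * (t : G)) ?_ ?_ ?_ ?_
  · intro t _
    rw [mem_fiber]
    exact (QuotientGroup.mk_mul_of_mem s₀ t.2)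
  · intro t _ t' _ h
    exact Subtype.ext (mul_left_cancel h)
  · intro s hs
    rw [mem_fiber] at hs
    have : s₀⁻¹ * s ∈ N := QuotientGroup.eq.1 hs.symm
    exact ⟨⟨s₀⁻¹ * s, this⟩, Finset.mem_univ _, by simp⟩
  · intro t _
    rfl

theorem sum_fiberwise {M : Type*} [AddCommMonoid M] (f : G → M) :
    ∑ σ : G ⧸ N, ∑ s ∈ fiber N σ, f s = ∑ s : G, f s := by
  classical
  unfold fiber
  exact Finset.sum_fiberwise Finset.univ (fun s : G => (s : G ⧸ N)) f

/-- a representative with maximal `i` in its coset. -/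
theorem exists_max_rep (σ : G ⧸ N) :
    ∃ s₀ : G, (s₀ : G ⧸ N) = σ ∧ ∀ t : N, D.i (s₀ * t) ≤ D.i s₀ := by
  obtain ⟨s₀, hs₀, hmax⟩ := Finset.exists_max_image (fiber N σ) D.i (fiber_nonempty N σ)
  rw [mem_fiber] at hs₀
  refine ⟨s₀, hs₀, fun t => hmax _ ?_⟩
  rw [mem_fiber, ← hs₀]
  exact QuotientGroup.mk_mul_of_mem s₀ t.2

theorem i_ne_top_of_mk_ne_one {s : G} (h : (s : G ⧸ N) ≠ 1) : D.i s ≠ ⊤ := by
  intro htop
  rw [D.i_eq_top] at htop
  rw [htop] at h
  exact h rfl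

/-- The **`K`-normalised Herbrand relation** (Serre IV Prop. 3) as a hypothesis:
`i'(σ) = ∑_{s ↦ σ} i(s)` (plain sum). -/
def QuotRel : Prop :=
  ∀ σ : G ⧸ N, σ ≠ 1 → (D'.i σ).toReal = ∑ s ∈ fiber N σ, (D.i s).toReal

variable {N D'}

/-- `i'(σ) = Φ_N(j(σ))` where `j(σ)` is the maximum of `i` on the coset. -/
theorem iQ_eq_Phi (hq : QuotRel D N D') {s₀ : G} (hσ : (s₀ : G ⧸ N) ≠ 1)
    (hmax : ∀ t : N, D.i (s₀ * t) ≤ D.i s₀) :
    (D'.i (s₀ : G ⧸ N)).toReal = (D.restrict N).Phi (D.i s₀).toReal := by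
  have h1 := hq _ hσ
  rw [sum_fiber] at h1
  have hn : D.i s₀ ≠ ⊤ := i_ne_top_of_mk_ne_one D N hσ
  have h2 : ∀ t : N, (D.i (s₀ * t)).toReal = tr ((D.restrict N).i t) (D.i s₀).toReal := by
    intro t
    have h3 := D.i_mul_eq_min (hmax t)
    lift D.i s₀ to NNReal using hn with c hc
    rw [h3, ENNReal.coe_toReal, restrict_i]
    have h4 : min (D.i ↑t) (c : ℝ≥0∞) ≠ ⊤ := ne_top_of_le_ne_top ENNReal.coe_ne_top
      (min_le_right _ _)
    rw [toReal_eq_tr h4 (x := (c : ℝ)), tr_min_coe, min_self]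
    have h5 := ENNReal.toReal_mono ENNReal.coe_ne_top (min_le_right (D.i ↑t) (c : ℝ≥0∞))
    rwa [ENNReal.coe_toReal] at h5
  rw [Finset.sum_congr rfl fun t _ => h2 t] at h1
  exact h1

/-- the key identity behind Herbrand's theorem and the transitivity of `Φ`. -/
theorem tr_iQ_eq (hq : QuotRel D N D') (σ : G ⧸ N) (r : ℝ) :
    tr (D'.i σ) ((D.restrict N).Phi r) = ∑ s ∈ fiber N σ, tr (D.i s) r := by
  obtain ⟨s₀, rfl, hmax⟩ := exists_max_rep D (N := N) σ
  rw [sum_fiber]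
  by_cases hσ : (s₀ : G ⧸ N) = 1
  · -- the trivial coset
    rw [hσ, D'.i_one, tr_top]
    have hs₀ : s₀ ∈ N := (QuotientGroup.eq_one_iff s₀).1 hσ
    unfold Phi
    rw [eq_comm]
    exact Fintype.sum_equiv (Equiv.mulLeft (⟨s₀, hs₀⟩ : N))
      (fun t : N => tr (D.i (s₀ * t)) r) (fun s : N => tr ((D.restrict N).i s) r)
      (fun t => rfl)
  · have hn : D.i s₀ ≠ ⊤ := i_ne_top_of_mk_ne_one D N hσ
    have hm : D'.i (s₀ : G ⧸ N) ≠ ⊤ := fun h => hσ ((D'.i_eq_top _).1 h)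
    have h1 := iQ_eq_Phi D hq hσ hmax
    have h2 : ∀ t : N, tr (D.i (s₀ * t)) r =
        tr ((D.restrict N).i t) (min (D.i s₀).toReal r) := by
      intro t
      have h3 := D.i_mul_eq_min (hmax t)
      lift D.i s₀ to NNReal using hn with c hc
      rw [h3, tr_min_coe, ENNReal.coe_toReal, restrict_i]
    rw [Finset.sum_congr rfl fun t _ => h2 t]
    have h4 : tr (D'.i (s₀ : G ⧸ N)) ((D.restrict N).Phi r) =
        (D.restrict N).Phi (min (D.i s₀).toReal r) := by
      unfold tr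
      rw [if_neg hm, h1, (D.restrict N).Phi_strictMono.monotone.map_min]
    rw [h4]
    rfl

/-- **Transitivity of Herbrand's function**: `Φ_G = Φ_{G/N} ∘ Φ_N`. -/
theorem Phi_eq_comp (hq : QuotRel D N D') (r : ℝ) :
    D.Phi r = D'.Phi ((D.restrict N).Phi r) := by
  show D.Phi r = ∑ σ : G ⧸ N, tr (D'.i σ) ((D.restrict N).Phi r)
  rw [Finset.sum_congr rfl fun σ _ => tr_iQ_eq D hq σ r, sum_fiberwise]
  rfl

/-- `Ψ_G = Ψ_N ∘ Ψ_{G/N}`. -/
theorem Psi_eq_comp (hq : QuotRel D N D') (v : ℝ) :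
    D.Psi v = (D.restrict N).Psi (D'.Psi v) := by
  apply D.Phi_strictMono.injective
  rw [Phi_Psi, Phi_eq_comp D hq, Phi_Psi, Phi_Psi]

/-- **Herbrand's theorem**: `G_{(r)} N / N = (G/N)_{(Φ_N(r))}`. -/
theorem map_lowerGroup (hq : QuotRel D N D') (r : ℝ) :
    (D.lowerGroup r).map (QuotientGroup.mk' N) = D'.lowerGroup ((D.restrict N).Phi r) := by
  ext σ
  rw [Subgroup.mem_map]
  constructor
  · rintro ⟨s, hs, rfl⟩
    rw [QuotientGroup.mk'_apply, mem_lowerGroup, ← tr_eq_self_iff]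
    rw [mem_lowerGroup, ← tr_eq_self_iff] at hs
    obtain ⟨s₀, hs₀, hmax⟩ := exists_max_rep D (N := N) (s : G ⧸ N)
    have hle : D.i s ≤ D.i s₀ := by
      have hmem : s₀⁻¹ * s ∈ N := QuotientGroup.eq.1 hs₀
      have := hmax ⟨s₀⁻¹ * s, hmem⟩
      simpa using this
    have hs0' : tr (D.i s₀) r = r :=
      le_antisymm (tr_le _ _) (hs.symm.le.trans (tr_mono_left hle _))
    by_cases hσ : (s : G ⧸ N) = 1
    · rw [hσ, D'.i_one, tr_top]
    · rw [← hs₀] at hσ ⊢
      have hm : D'.i (s₀ : G ⧸ N) ≠ ⊤ := fun h => hσ ((D'.i_eq_top _).1 h)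
      have hn : D.i s₀ ≠ ⊤ := i_ne_top_of_mk_ne_one D N hσ
      have h1 := iQ_eq_Phi D hq hσ hmax
      unfold tr
      rw [if_neg hm, h1, ← (D.restrict N).Phi_strictMono.monotone.map_min]
      congr 1
      unfold tr at hs0'
      rwa [if_neg hn] at hs0'
  · intro hσ
    by_cases h1 : σ = 1
    · exact ⟨1, Subgroup.one_mem _, by rw [map_one, h1]⟩
    · obtain ⟨s₀, rfl, hmax⟩ := exists_max_rep D (N := N) σ
      refine ⟨s₀, ?_, rfl⟩
      have hm : D'.i (s₀ : G ⧸ N) ≠ ⊤ := fun h => h1 ((D'.i_eq_top _).1 h)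
      have h2 := iQ_eq_Phi D hq h1 hmax
      rw [mem_lowerGroup] at hσ ⊢
      rcases hσ with hσ | hσ
      · exact absurd hσ hm
      · right
        rw [h2] at hσ
        exact (D.restrict N).Phi_strictMono.le_iff_le.1 hσ

/-- **Upper numbering passes to quotients**: `G^{(v)} N / N = (G/N)^{(v)}`. -/
theorem map_upperGroup (hq : QuotRel D N D') (v : ℝ) :
    (D.upperGroup v).map (QuotientGroup.mk' N) = D'.upperGroup v := by
  unfold upperGroup
  rw [map_lowerGroup D hq, Psi_eq_comp D hq, Phi_Psi]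

/-- `u_{K'/K} ≤ u_{L/K}`. -/
theorem uMax_quotient_le (hq : QuotRel D N D') : D'.uMax ≤ D.uMax := by
  rw [D'.uMax_le_iff D.uMax_nonneg]
  intro v hv
  rw [← map_upperGroup D hq, D.upperGroup_eq_bot_of_lt hv, Subgroup.map_bot]

/-- `N^{(Ψ_{G/N}(v))} = N ∩ G^{(v)}`. -/
theorem upperGroup_restrict (hq : QuotRel D N D') (v : ℝ) :
    (D.restrict N).upperGroup (D'.Psi v) = (D.upperGroup v).subgroupOf N := by
  unfold upperGroup
  rw [← Psi_eq_comp D hq, lowerGroup_restrict]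

/-- `N^{(w)} = N ∩ G^{(Φ_{G/N}(w))}`. -/
theorem upperGroup_restrict' (hq : QuotRel D N D') (w : ℝ) :
    (D.restrict N).upperGroup w = (D.upperGroup (D'.Phi w)).subgroupOf N := by
  rw [← upperGroup_restrict D hq, Psi_Phi]

theorem upperGroup_le_of_quotient (hq : QuotRel D N D') {v : ℝ}
    (h : D'.upperGroup v = ⊥) : D.upperGroup v ≤ N := by
  rw [← map_upperGroup D hq, Subgroup.map_eq_bot_iff, QuotientGroup.ker_mk'] at h
  exact h

theorem iMax_restrict_le : (D.restrict N).iMax ≤ D.iMax := by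
  apply Finset.sup'_le
  intro t _
  exact D.toReal_i_le_iMax (t : G)

/-- `Φ_{G/N}(u_{L/K'}) ≤ u_{L/K}`. -/
theorem Phi_uMax_restrict_le (hq : QuotRel D N D') : D'.Phi (D.restrict N).uMax ≤ D.uMax := by
  unfold uMax
  rw [← Phi_eq_comp D hq]
  exact D.Phi_mono (iMax_restrict_le D)

/-- **the largest upper break in a tower**: `u_{L/K} = max (u_{K'/K}, Φ_{K'/K}(u_{L/K'}))`. -/
theorem uMax_eq_max_tower (hq : QuotRel D N D') :
    D.uMax = max D'.uMax (D'.Phi (D.restrict N).uMax) := by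
  apply le_antisymm
  · have h0 : (0 : ℝ) ≤ max D'.uMax (D'.Phi (D.restrict N).uMax) :=
      D'.uMax_nonneg.trans (le_max_left _ _)
    rw [D.uMax_le_iff h0]
    intro v hv
    have hv1 : D'.uMax < v := (le_max_left _ _).trans_lt hv
    have hv2 : D'.Phi (D.restrict N).uMax < v := (le_max_right _ _).trans_lt hv
    have h1 : D.upperGroup v ≤ N :=
      upperGroup_le_of_quotient D hq (D'.upperGroup_eq_bot_of_lt hv1)
    have h2 : (D.upperGroup v).subgroupOf N = ⊥ := by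
      rw [← upperGroup_restrict D hq]
      apply (D.restrict N).upperGroup_eq_bot_of_lt
      rwa [← D'.Phi_lt_iff]
    rw [Subgroup.subgroupOf_eq_bot] at h2
    exact h2.eq_bot_of_le h1
  · exact max_le (uMax_quotient_le D hq) (Phi_uMax_restrict_le D hq)

end Quotient

/-! ### Compositum -/

section Compositum

variable [Fintype G] (N₁ N₂ : Subgroup G) [N₁.Normal] [N₂.Normal] [Fintype N₁] [Fintype N₂]
  [Fintype (G ⧸ N₁)] [Fintype (G ⧸ N₂)] {D₁ : RamDatum (G ⧸ N₁)} {D₂ : RamDatum (G ⧸ N₂)}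

/-- **compositum**: if `L = K₁ K₂` (`N₁ ⊓ N₂ = ⊥`) then `u_{L/K} = max (u_{K₁/K}, u_{K₂/K})`. -/
theorem uMax_eq_max_of_inf_eq_bot (h12 : N₁ ⊓ N₂ = ⊥) (hq₁ : QuotRel D N₁ D₁)
    (hq₂ : QuotRel D N₂ D₂) : D.uMax = max D₁.uMax D₂.uMax := by
  apply le_antisymm
  · have h0 : (0 : ℝ) ≤ max D₁.uMax D₂.uMax := D₁.uMax_nonneg.trans (le_max_left _ _)
    rw [D.uMax_le_iff h0]
    intro v hv
    have h1 : D.upperGroup v ≤ N₁ := upperGroup_le_of_quotient D hq₁
      (D₁.upperGroup_eq_bot_of_lt ((le_max_left _ _).trans_lt hv))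
    have h2 : D.upperGroup v ≤ N₂ := upperGroup_le_of_quotient D hq₂
      (D₂.upperGroup_eq_bot_of_lt ((le_max_right _ _).trans_lt hv))
    rw [eq_bot_iff, ← h12]
    exact le_inf h1 h2
  · exact max_le (uMax_quotient_le D hq₁) (uMax_quotient_le D hq₂)

end Compositum

end RamDatum

end Fermat.Agent.S56x.Ram
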