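import Fermat.Agent.Lib.Ram.HerbrandCor
import Fermat.Agent.S56x.Ram.Abstract

/-!
helper74 (P-S56, block (A)).  DICTIONARY between the two normalisations of abstract ramification
theory:

* SERRE: `Lib.Ram.LowerNumbering G` (`i : G → ℕ∞`, `v_L`-normalised, `G_u = {s | u + 1 ≤ i s}`,
  `φ(u) = (1/e) ∑ min (i s, u + 1) - 1`), file `Lib/Ram/Herbrand.lean`;
* FONTAINE: `S56x.Ram.RamDatum G` (`i : G → ℝ≥0∞`, `v_K`-normalised, `G_{(r)} = {s | r ≤ i s}`,
  `Φ(r) = ∑ min (i s, r)`), file `S56x/Ram/Abstract.lean`.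

`I.scale e` is the datum `i s / e`.  For `e = I.e0` (`= e_{L/K}`):
`G_{(r)} = G_{e r - 1}`, `Φ(r) = φ(e r - 1) + 1`, `G^{(v)} = G^{v - 1}`,
`uMax ≤ v₀ + 1 ↔ UpperBounded v₀`, and Serre's `QuotientFormula` gives the plain-sum `QuotRel`.
-/

set_option autoImplicit false
set_option linter.unusedSectionVars false

open Finset
open scoped ENNReal

namespace Fermat.Agent.S56x.Ram.Bridge

open Fermat.Agent.Lib.Ram Fermat.Agent.S56x.Ram

/-- `a / e` as an extended non-negative real. -/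
noncomputable def sc (e : ℕ) (a : ℕ∞) : ℝ≥0∞ := (a : ℝ≥0∞) / (e : ℝ≥0∞)

theorem sc_top {e : ℕ} : sc e ⊤ = ⊤ := by
  unfold sc
  rw [ENat.toENNReal_top]
  exact ENNReal.top_div_of_ne_top (ENNReal.natCast_ne_top e)

theorem sc_coe {e : ℕ} (n : ℕ) : sc e (n : ℕ∞) = (n : ℝ≥0∞) / (e : ℝ≥0∞) := by
  unfold sc
  rw [ENat.toENNReal_coe]

theorem sc_coe_ne_top {e : ℕ} (he : 0 < e) (n : ℕ) : sc e (n : ℕ∞) ≠ ⊤ := by
  rw [sc_coe]
  apply ENNReal.div_ne_top (ENNReal.natCast_ne_top n)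
  exact_mod_cast he.ne'

theorem sc_eq_top_iff {e : ℕ} (he : 0 < e) {a : ℕ∞} : sc e a = ⊤ ↔ a = ⊤ := by
  induction a using ENat.recTopCoe with
  | top => simp [sc_top]
  | coe n => simp [sc_coe_ne_top he n]

theorem sc_mono (e : ℕ) : Monotone (sc e) := by
  intro a b hab
  unfold sc
  exact ENNReal.div_le_div_right (ENat.toENNReal_le.2 hab) _

theorem sc_toReal {e : ℕ} (a : ℕ∞) : (sc e a).toReal = (a.toNat : ℝ) / e := by
  induction a using ENat.recTopCoe with
  | top =>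
    by_cases he : e = 0
    · subst he; simp [sc]
    · rw [sc_top (e := e)]; simp
  | coe n =>
    rw [sc_coe, ENNReal.toReal_div, ENat.toNat_natCast]
    simp

theorem leE_sc_iff {e : ℕ} (he : 0 < e) (r : ℝ) (a : ℕ∞) :
    leE r (sc e a) ↔ leENat (e * r) a := by
  have he' : (0 : ℝ) < e := Nat.cast_pos.2 he
  unfold leE leENat
  rw [sc_eq_top_iff he, sc_toReal, le_div_iff₀ he', mul_comm]

theorem tr_sc {e : ℕ} (he : 0 < e) (a : ℕ∞) (r : ℝ) :
    S56x.Ram.tr (sc e a) r = Lib.Ram.tr a (e * r) / e := by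
  have he' : (0 : ℝ) < e := Nat.cast_pos.2 he
  unfold S56x.Ram.tr Lib.Ram.tr
  rw [sc_toReal]
  by_cases h : a = ⊤
  · rw [if_pos h, if_pos ((sc_eq_top_iff he).2 h), mul_div_cancel_left₀ _ he'.ne']
  · rw [if_neg h, if_neg (mt (sc_eq_top_iff he).1 h), ← min_div_div_right he'.le,
      mul_div_cancel_left₀ _ he'.ne']

end Bridge

end Fermat.Agent.S56x.Ram

namespace Fermat.Agent.Lib.Ram.LowerNumbering

open Fermat.Agent.S56x.Ram Fermat.Agent.S56x.Ram.Bridge

variable {G : Type*} [Group G] (I : LowerNumbering G)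

/-- The Fontaine-normalised datum `s ↦ i s / e` attached to a Serre-normalised lower numbering. -/
noncomputable def scale (e : ℕ) (he : 0 < e) : RamDatum G where
  i s := sc e (I.i s)
  i_eq_top s := by rw [sc_eq_top_iff he, I.i_eq_top]
  i_mul s t := by
    rw [← (sc_mono e).map_min]
    exact sc_mono e (I.i_mul s t)
  i_inv s := by rw [I.i_inv]
  i_conj s t := by rw [I.i_conj]

@[simp] theorem scale_i (e : ℕ) (he : 0 < e) (s : G) : (I.scale e he).i s = sc e (I.i s) := rfl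

theorem scale_restrict (e : ℕ) (he : 0 < e) (H : Subgroup G) :
    (I.scale e he).restrict H = (I.restrict H).scale e he := rfl

/-- `G_{(r)} = G_{e r - 1}`. -/
theorem lowerGroup_scale (e : ℕ) (he : 0 < e) (r : ℝ) :
    (I.scale e he).lowerGroup r = I.lowerGroup (e * r - 1) := by
  ext s
  rw [RamDatum.mem_lowerGroup, mem_lowerGroup, scale_i, leE_sc_iff he, sub_add_cancel]

section Fin

variable [Fintype G]

theorem Phi_scale (e : ℕ) (he : 0 < e) (r : ℝ) :
    (I.scale e he).Phi r = I.trSum (e * r) / e := by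
  unfold RamDatum.Phi trSum
  rw [Finset.sum_div]
  exact Finset.sum_congr rfl fun s _ => tr_sc he (I.i s) r

/-- The Fontaine-normalised datum of a lower numbering (`e = e_{L/K} = |G_0|`). -/
noncomputable def toRamDatum : RamDatum G := I.scale I.e0 I.e0_pos

/-- `Φ(r) = φ(e r - 1) + 1`. -/
theorem Phi_toRamDatum (r : ℝ) : I.toRamDatum.Phi r = I.phi (I.e0 * r - 1) + 1 := by
  unfold toRamDatum phi
  rw [Phi_scale, sub_add_cancel, sub_add_cancel]

/-- `φ(u) = Φ((u + 1)/e) - 1`. -/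
theorem phi_eq_Phi (u : ℝ) : I.phi u = I.toRamDatum.Phi ((u + 1) / I.e0) - 1 := by
  have he : (I.e0 : ℝ) ≠ 0 := Nat.cast_ne_zero.2 I.e0_pos.ne'
  rw [Phi_toRamDatum, mul_div_cancel₀ _ he, add_sub_cancel_right, add_sub_cancel_right]

theorem lowerGroup_toRamDatum (r : ℝ) :
    I.toRamDatum.lowerGroup r = I.lowerGroup (I.e0 * r - 1) :=
  I.lowerGroup_scale _ _ r

/-- `Ψ(v) = (ψ(v - 1) + 1)/e`. -/
theorem Psi_toRamDatum (v : ℝ) : I.toRamDatum.Psi v = (I.psi (v - 1) + 1) / I.e0 := by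
  have he : (I.e0 : ℝ) ≠ 0 := Nat.cast_ne_zero.2 I.e0_pos.ne'
  apply I.toRamDatum.Phi_strictMono.injective
  rw [RamDatum.Phi_Psi, Phi_toRamDatum, mul_div_cancel₀ _ he, add_sub_cancel_right, phi_psi]
  ring

/-- **Fontaine's upper numbering is Serre's shifted by one**: `G^{(v)} = G^{v-1}`. -/
theorem upperGroup_toRamDatum (v : ℝ) : I.toRamDatum.upperGroup v = I.upperGroup (v - 1) := by
  have he : (I.e0 : ℝ) ≠ 0 := Nat.cast_ne_zero.2 I.e0_pos.ne'
  unfold RamDatum.upperGroup upperGroup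
  rw [lowerGroup_toRamDatum, Psi_toRamDatum, mul_div_cancel₀ _ he, add_sub_cancel_right]

/-- `u_{L/K} ≤ v₀ + 1` (Fontaine) iff all `G^v`, `v > v₀`, are trivial (Serre). -/
theorem uMax_toRamDatum_le_iff {v₀ : ℝ} (hv : -1 ≤ v₀) :
    I.toRamDatum.uMax ≤ v₀ + 1 ↔ I.UpperBounded v₀ := by
  rw [RamDatum.uMax_le_iff _ (by linarith)]
  constructor
  · intro h w hw
    have := h (w + 1) (by linarith)
    rwa [upperGroup_toRamDatum, add_sub_cancel_right] at this
  · intro h v hv'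
    rw [upperGroup_toRamDatum]
    exact h _ (by linarith)

theorem upperBounded_of_uMax_le {m : ℝ} (hm : 0 ≤ m) (h : I.toRamDatum.uMax ≤ m) :
    I.UpperBounded (m - 1) := by
  rw [← uMax_toRamDatum_le_iff I (by linarith), sub_add_cancel]
  exact h

end Fin

section Quot

variable [Fintype G] (H : Subgroup G) [H.Normal] [Fintype H] [Fintype (G ⧸ H)]
  (IQ : LowerNumbering (G ⧸ H))

variable {H IQ}

theorem fiber_eq_fiber (σ : G ⧸ H) : RamDatum.fiber H σ = fiber H σ := by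
  ext s
  rw [RamDatum.mem_fiber, mem_fiber]

/-- Serre's quotient formula gives the plain-sum Herbrand relation for the `K`-normalised data:
`G` scaled by `e_{L/K}`, `G/H` scaled by `e_{K'/K}`. -/
theorem quotRel_of_quotientFormula (hq : QuotientFormula I H IQ) :
    RamDatum.QuotRel I.toRamDatum H IQ.toRamDatum := by
  intro σ hσ
  have heH : ((I.restrict H).e0 : ℝ) ≠ 0 := Nat.cast_ne_zero.2 (I.restrict H).e0_pos.ne'
  have heQ : (IQ.e0 : ℝ) ≠ 0 := Nat.cast_ne_zero.2 IQ.e0_pos.ne'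
  have he : (I.e0 : ℝ) = IQ.e0 * (I.restrict H).e0 := by exact_mod_cast e0_eq_mul I hq
  have h1 := hq σ hσ
  unfold toRamDatum
  rw [scale_i, sc_toReal, fiber_eq_fiber,
    Finset.sum_congr rfl fun s _ => by rw [scale_i, sc_toReal], ← Finset.sum_div, ← h1, he]
  field_simp

/-- the `K`-normalised datum of the subgroup `H` is the restriction of that of `G`
(scaled by `e_{L/K}`, not by `e_{L/K'}`). -/
theorem toRamDatum_restrict : I.toRamDatum.restrict H = (I.restrict H).scale I.e0 I.e0_pos := rfl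

end Quot

end Fermat.Agent.Lib.Ram.LowerNumbering
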