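import Mathlib
import Fermat.Agent.Lib.Ram.FontaineBound
import Fermat.Agent.S56x.Local.PadicFinite

/-!
helper6 (P-S56, block (A) LOCAL).  **Fontaine's bound for finite Galois extensions `L / ℚ_p`
inside `PadicAlgCl p`**, in Serre's upper numbering, for the model `A = ℤ_[p]`, `B = OE p L`
(`S56x/Local/PadicFinite`) of the rings of integers: instantiation of `Lib/Ram/FontaineBound`.

* `upperBounded_of_forall_propertyP` : `(P_m)` for all `ρ < p ^ (-(v₀ + 1))` ⟹ `G^v = 1` for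
  `v > v₀`.
* `upperBounded_fontaine` : `(P_m)` for all `ρ` with `ρ ^ (p - 1) < p ^ (-p)` (the export of
  `S56x/Fontaine/PmOfLift`, i.e. `m > 1 + 1/(p-1)`) ⟹ `G^v = 1` for `v > 1/(p-1)`.
* `propertyP_of_upperBounded` : the converse (Krasner).
-/

set_option autoImplicit false

open scoped NNReal

namespace Fermat.Agent.S56x.Ram.FontaineBoundPadic

open Fermat.Agent.Lib.Ram Fermat.Agent.Lib.Ram.PropertyPm Fermat.Agent.Lib.Ram.GaloisLower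
  Fermat.Agent.S56x.Local.PadicFinite

variable (p : ℕ) [Fact p.Prime]

theorem mem_range_iff (k : ℚ_[p]) : ‖k‖ ≤ 1 ↔ k ∈ (algebraMap ℤ_[p] ℚ_[p]).range := by
  constructor
  · intro hk
    exact ⟨⟨k, hk⟩, rfl⟩
  · rintro ⟨a, rfl⟩
    exact a.2

theorem norm_natCast_p : ‖((p : ℕ) : PadicAlgCl p)‖ = (p : ℝ)⁻¹ := by
  have h : ((p : ℕ) : PadicAlgCl p) = algebraMap ℚ_[p] (PadicAlgCl p) ((p : ℕ) : ℚ_[p]) := by
    rw [map_natCast]
  rw [h, norm_algebraMap', Padic.norm_p]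

theorem norm_natCast_p_lt_one : ‖((p : ℕ) : PadicAlgCl p)‖ < 1 := by
  rw [norm_natCast_p]
  exact inv_lt_one_of_one_lt₀ (by exact_mod_cast (Fact.out : p.Prime).one_lt)

theorem norm_algebraMap_p : ‖algebraMap ℤ_[p] ℚ_[p] (p : ℤ_[p])‖ = (p : ℝ)⁻¹ := by
  have h : algebraMap ℤ_[p] ℚ_[p] (p : ℤ_[p]) = ((p : ℕ) : ℚ_[p]) := by
    rw [map_natCast]
  rw [h, Padic.norm_p]

/-- **The converse** (Krasner): if `Gal(L/ℚ_p)^v = 1` for all `v > v₀` then `(P_m)` holds for all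
`ρ < p ^ (-(v₀ + 1))`. -/
theorem propertyP_of_upperBounded (L : IntermediateField ℚ_[p] (PadicAlgCl p))
    [FiniteDimensional ℚ_[p] L] [IsGalois ℚ_[p] L] {v₀ : ℝ} (hv₀ : -1 ≤ v₀)
    (hb : (lowerNumbering ℤ_[p] ℚ_[p] L (OE p L)).UpperBounded v₀)
    {ρ : ℝ≥0} (hρ : (ρ : ℝ) < ((p : ℝ)⁻¹) ^ (v₀ + 1)) : PropertyP ℚ_[p] (PadicAlgCl p) L ρ := by
  refine FontaineBound.propertyP_of_upperBounded (A := ℤ_[p]) (B := OE p L) (L := L)
    (mem_range_iff p) (π := (p : ℤ_[p])) PadicInt.irreducible_p hv₀ hb ?_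
  rw [norm_algebraMap_p]
  exact hρ

variable (L : IntermediateField ℚ_[p] (PadicAlgCl p)) [FiniteDimensional ℚ_[p] L]
  [IsGalois ℚ_[p] L] [Fintype (L ≃ₐ[ℚ_[p]] L)]

/-- **Fontaine's bound, Serre numbering**: `(P_m)` for all `ρ < p ^ (-(v₀ + 1))` implies that the
upper ramification groups `Gal(L/ℚ_p)^v`, `v > v₀`, are trivial. -/
theorem upperBounded_of_forall_propertyP {v₀ : ℝ} (hv₀ : -1 ≤ v₀)
    (h : ∀ ρ : ℝ≥0, (ρ : ℝ) < ((p : ℝ)⁻¹) ^ (v₀ + 1) → PropertyP ℚ_[p] (PadicAlgCl p) L ρ) :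
    (lowerNumbering ℤ_[p] ℚ_[p] L (OE p L)).UpperBounded v₀ := by
  refine FontaineBound.upperBounded_of_forall_propertyP (A := ℤ_[p]) (B := OE p L) (L := L)
    (mem_range_iff p) p (norm_natCast_p_lt_one p) (π := (p : ℤ_[p])) PadicInt.irreducible_p hv₀ ?_
  intro ρ hρ
  rw [norm_algebraMap_p] at hρ
  exact h ρ hρ

/-- **Fontaine's theorem, ramification part**: if `(P_m)` holds for all `ρ` with
`ρ ^ (p - 1) < p ^ (-p)` then `Gal(L/ℚ_p)^v = 1` for all `v > 1/(p-1)`. -/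
theorem upperBounded_fontaine
    (h : ∀ ρ : ℝ≥0, (ρ : ℝ) ^ (p - 1) < ((p : ℝ)⁻¹) ^ p → PropertyP ℚ_[p] (PadicAlgCl p) L ρ) :
    (lowerNumbering ℤ_[p] ℚ_[p] L (OE p L)).UpperBounded (1 / ((p : ℝ) - 1)) := by
  have hp1 : (1 : ℝ) < p := by exact_mod_cast (Fact.out : p.Prime).one_lt
  have hpos : (0 : ℝ) < (p : ℝ) - 1 := by linarith
  have hv₀ : (-1 : ℝ) ≤ 1 / ((p : ℝ) - 1) := by
    have : (0 : ℝ) ≤ 1 / ((p : ℝ) - 1) := by positivity
    linarith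
  refine upperBounded_of_forall_propertyP p L hv₀ fun ρ hρ => h ρ ?_
  have hq0 : (0 : ℝ) < (p : ℝ)⁻¹ := by positivity
  have hne : p - 1 ≠ 0 := by
    have := (Fact.out : p.Prime).two_le
    omega
  have h1 : (ρ : ℝ) ^ (p - 1) < (((p : ℝ)⁻¹) ^ (1 / ((p : ℝ) - 1) + 1)) ^ (p - 1) :=
    pow_lt_pow_left₀ hρ ρ.2 hne
  have h2 : (((p : ℝ)⁻¹) ^ (1 / ((p : ℝ) - 1) + 1)) ^ (p - 1) = ((p : ℝ)⁻¹) ^ p := by
    rw [← Real.rpow_natCast, ← Real.rpow_mul hq0.le, ← Real.rpow_natCast]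
    congr 1
    have hcast : ((p - 1 : ℕ) : ℝ) = (p : ℝ) - 1 := by
      rw [Nat.cast_sub (Fact.out : p.Prime).one_le, Nat.cast_one]
    rw [hcast]
    field_simp
    ring
  rw [h2] at h1
  exact h1

end Fermat.Agent.S56x.Ram.FontaineBoundPadic
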