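import Mathlib
import Fermat.Agent.S56x.Ram.FontaineBoundPadic
import Fermat.Agent.S56x.Fontaine.ThmA

/-!
helper6 (P-S56, block (A) LOCAL).  Discharge of the hypothesis `FontaineBoundStatement p` of
`S56x/Fontaine/ThmA` (helper17) by `S56x/Ram/FontaineBoundPadic.upperBounded_fontaine`.
-/

set_option autoImplicit false

namespace Fermat.Agent.S56x.Ram.FontaineBoundStmt

/-- **Fontaine's Prop. 1.5 (ii)**, sharp, Serre's numbering, for all finite Galois `L / ℚ_p`. -/
theorem fontaineBoundStatement (p : ℕ) [Fact p.Prime] :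
    Fermat.Agent.S56x.Fontaine.ThmA.FontaineBoundStatement p :=
  fun L _ _ h => Fermat.Agent.S56x.Ram.FontaineBoundPadic.upperBounded_fontaine p L h

end Fermat.Agent.S56x.Ram.FontaineBoundStmt
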