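/-
P-S56, block (A), ramification layer (helper42): the arithmetic `LowerNumbering` (abstract layer
`Lib/Ram/Herbrand.lean`, helper74) of a finite group acting faithfully on a discrete valuation
ring, and `i_G` through a generator.
-/
import Mathlib
import Fermat.Agent.Lib.Ram.Herbrand
import Fermat.Agent.S56x.Ram.Lower

set_option autoImplicit false

namespace Fermat.Agent.S56x.Ram

open Fermat.Agent.Lib.Ram

section Inst

variable (G : Type*) [Group G] (B : Type*) [CommRing B] [IsDomain B] [IsDiscreteValuationRing B]
  [MulSemiringAction G B] [FaithfulSMul G B]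

/-- **the arithmetic lower numbering** `i_G(σ) = inf_x v_B(σ x - x)`. -/
noncomputable def lowerNumbering : LowerNumbering G where
  i := iFun G B
  i_eq_top _ := iFun_eq_top_iff
  i_mul := le_iFun_mul
  i_inv := iFun_inv
  i_conj := iFun_conj

@[simp] theorem lowerNumbering_i (σ : G) : (lowerNumbering G B).i σ = iFun G B σ := rfl

/-- the real-indexed lower group of the abstract layer at `n - 1` is `lowerGroup G B n`
(Serre's `G_{n-1}`). -/
theorem lowerNumbering_lowerGroup (n : ℕ) :
    (lowerNumbering G B).lowerGroup ((n : ℝ) - 1) = lowerGroup G B n := by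
  ext σ
  rw [LowerNumbering.mem_lowerGroup, sub_add_cancel, lowerNumbering_i,
    mem_lowerGroup_iff_le_iFun]
  induction h : iFun G B σ using ENat.recTopCoe with
  | top => simp [leENat_top]
  | coe m =>
    rw [leENat_coe]
    constructor
    · intro h1; exact_mod_cast h1
    · intro h1; exact_mod_cast h1

/-- the ramification index of the abstract layer is the order of the inertia group. -/
theorem lowerNumbering_e0 [Fintype G] :
    (lowerNumbering G B).e0 = Nat.card (lowerGroup G B 1) := by
  classical
  rw [Nat.card_eq_fintype_card]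
  refine (Fintype.card_of_subtype _ ?_).symm
  intro σ
  rw [Finset.mem_filter, mem_lowerGroup_iff_le_iFun]
  simp

end Inst

section Generator

variable {G : Type*} [Group G] {B : Type*} [CommRing B] [IsDomain B] [IsDiscreteValuationRing B]
  [MulSemiringAction G B]

/-- **`i_G` through a generator**: if `B = A[x]` with `G` acting `A`-linearly then
`i_G(σ) = v_B(σ x - x)`. -/
theorem iFun_eq_of_adjoin_eq_top (A : Type*) [CommRing A] [Algebra A B] [SMulCommClass G A B]
    {x : B} (hx : Algebra.adjoin A {x} = ⊤) (σ : G) :
    iFun G B σ = IsDiscreteValuationRing.addVal B (σ • x - x) := by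
  refine le_antisymm (iFun_le σ x) ?_
  rw [le_iFun_iff]
  intro y
  have hy : y ∈ Algebra.adjoin A {x} := by rw [hx]; exact Algebra.mem_top
  rw [Algebra.adjoin_singleton_eq_range_aeval] at hy
  obtain ⟨P, rfl⟩ := hy
  show _ ≤ IsDiscreteValuationRing.addVal B (σ • Polynomial.aeval x P - Polynomial.aeval x P)
  rw [IsDiscreteValuationRing.addVal_le_iff_dvd]
  have h1 : σ • (Polynomial.aeval x P) = Polynomial.aeval (σ • x) P := by
    have := Polynomial.aeval_algHom_apply (MulSemiringAction.toAlgHom A B σ) x P
    simpa using this.symm
  rw [h1, Polynomial.aeval_def, Polynomial.aeval_def, Polynomial.eval₂_eq_eval_map,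
    Polynomial.eval₂_eq_eval_map]
  exact Polynomial.sub_dvd_eval_sub _ _ _

end Generator

end Fermat.Agent.S56x.Ram
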