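import Mathlib
import Fermat.Agent.Lib.Ram.PmSharp
import Fermat.Agent.S56x.Ram.Abstract

/-!
helper61 (P-S56, block (A) LOCAL).  BRIDGE between the norm language of `Lib/Ram/PmSharp`
(`threshold L α s₁ = ∏ σ, max d ‖σ α - α‖`) and helper74's abstract ramification data in
FONTAINE's normalisation (`S56x/Ram/Abstract`, `RamDatum`, `uMax = Φ(i_max)`):

if `‖σ α - α‖ = c ^ (D.i σ)` for all `σ ≠ 1` (`0 < c < 1`, `c = ‖π_K‖`) then
`threshold L α s₁ = c ^ D.uMax`, and Fontaine's Prop. 1.5 (ii) reads, SHARPLY,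

`uMax_le_of_forall_Pm : (∀ m > m₀, PropertyPRoot K Ω L α (c ^ m)) → D.uMax ≤ m₀`.
-/

set_option autoImplicit false

open Polynomial IntermediateField
open scoped ENNReal NNReal

namespace Fermat.Agent.S56x.Ram.PmSharpDatum

open Fermat.Agent.Lib.Ram Fermat.Agent.Lib.Ram.PropertyPm Fermat.Agent.Lib.Ram.PmSharp
open Fermat.Agent.S56x.Ram

section Datum

variable {G : Type*} [Group G] [Fintype G] (D : RamDatum G)

/-- `max (c ^ r) (c ^ a) = c ^ min (a, r)` with `c ^ ⊤ = 0`. -/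
theorem max_rpow_eq {c : ℝ} (hc0 : 0 < c) (hc1 : c < 1) (r : ℝ) (a : ℝ≥0∞) (x : ℝ)
    (hx : x = if a = ⊤ then 0 else c ^ a.toReal) : max (c ^ r) x = c ^ tr a r := by
  subst hx
  unfold tr
  split_ifs with h
  · exact max_eq_left (Real.rpow_pos_of_pos hc0 r).le
  · rcases le_total a.toReal r with h1 | h1
    · rw [min_eq_left h1]
      exact max_eq_right (Real.rpow_le_rpow_of_exponent_ge hc0 hc1.le h1)
    · rw [min_eq_right h1]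
      exact max_eq_left (Real.rpow_le_rpow_of_exponent_ge hc0 hc1.le h1)

/-- `∏ s, max (c ^ i_max) (dist s) = c ^ uMax` when `dist s = c ^ (i s)`. -/
theorem prod_max_eq_rpow_uMax {c : ℝ} (hc0 : 0 < c) (hc1 : c < 1) (dist : G → ℝ)
    (hdist : ∀ s, dist s = if D.i s = ⊤ then 0 else c ^ (D.i s).toReal) :
    ∏ s, max (c ^ D.iMax) (dist s) = c ^ D.uMax := by
  unfold RamDatum.uMax RamDatum.Phi
  rw [Real.rpow_sum_of_pos hc0]
  exact Finset.prod_congr rfl fun s _ => max_rpow_eq hc0 hc1 _ _ _ (hdist s)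

end Datum

section Field

variable {K : Type*} [NormedField K] {Ω : Type*} [NormedField Ω] [IsUltrametricDist Ω]
  [NormedAlgebra K Ω] (L : IntermediateField K Ω) [FiniteDimensional K L] [IsGalois K L]

omit [IsUltrametricDist Ω] [IsGalois K L] in
/-- The threshold of `Lib/Ram/PmSharp` is `c ^ u_{L/K}`. -/
theorem coe_threshold_eq_rpow_uMax (D : RamDatum (L ≃ₐ[K] L)) {c : ℝ} (hc0 : 0 < c) (hc1 : c < 1)
    (α : L) (hD : ∀ σ : L ≃ₐ[K] L, σ ≠ 1 → ‖((σ α : L) : Ω) - α‖ = c ^ (D.i σ).toReal)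
    (s₁ : L ≃ₐ[K] L) (hs₁ : s₁ ≠ 1)
    (hmin : ∀ σ : L ≃ₐ[K] L, σ ≠ 1 → ‖((s₁ α : L) : Ω) - α‖ ≤ ‖((σ α : L) : Ω) - α‖) :
    (threshold L α s₁ : ℝ) = c ^ D.uMax := by
  have hiMax : (D.i s₁).toReal = D.iMax := by
    apply le_antisymm (D.toReal_i_le_iMax s₁)
    rw [D.iMax_le_iff ENNReal.toReal_nonneg]
    intro σ hσ
    have h1 := hmin σ hσ
    rw [hD σ hσ, hD s₁ hs₁] at h1
    exact (Real.rpow_le_rpow_left_iff_of_base_lt_one hc0 hc1).1 h1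
  rw [coe_threshold, hD s₁ hs₁, hiMax]
  refine prod_max_eq_rpow_uMax D hc0 hc1 (fun σ : L ≃ₐ[K] L => ‖((σ α : L) : Ω) - α‖) fun σ => ?_
  by_cases hσ : σ = 1
  · rw [hσ, if_pos D.i_one, AlgEquiv.one_apply, sub_self, norm_zero]
  · rw [if_neg (D.i_ne_top hσ), hD σ hσ]

/-- **`uMax_le_of_forall_Pm`** (Fontaine Prop. 1.5 (ii), SHARP, finite residue field):
if `(P_m)` holds for every `m > m₀` then `u_{L/K} ≤ m₀`. -/
theorem uMax_le_of_forall_Pm [IsAlgClosed Ω] (D : RamDatum (L ≃ₐ[K] L)) {c : ℝ} (hc0 : 0 < c)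
    (hc1 : c < 1) (α : L) (hα : IntermediateField.adjoin K {α} = ⊤) (hα1 : ‖(α : Ω)‖ ≤ 1)
    (hD : ∀ σ : L ≃ₐ[K] L, σ ≠ 1 → ‖((σ α : L) : Ω) - α‖ = c ^ (D.i σ).toReal)
    (hinv : ∀ (σ : L ≃ₐ[K] L) (x : L), ‖((σ x : L) : Ω)‖ = ‖(x : Ω)‖)
    (s₁ : L ≃ₐ[K] L) (hs₁ : s₁ ≠ 1)
    (hmin : ∀ σ : L ≃ₐ[K] L, σ ≠ 1 → ‖((s₁ α : L) : Ω) - α‖ ≤ ‖((σ α : L) : Ω) - α‖)
    [Finite (intK L ⧸ maxIdeal L)]
    (hres : ∀ x : L, ‖(x : Ω)‖ ≤ 1 →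
      ∃ y : L, (∀ t ∈ Subgroup.zpowers s₁, t y = y) ∧ ‖(x : Ω) - y‖ < 1)
    {m₀ : ℝ}
    (h : ∀ m : ℝ, m₀ < m →
      PropertyPRoot K Ω L (α : Ω) ⟨c ^ m, (Real.rpow_pos_of_pos hc0 m).le⟩) :
    D.uMax ≤ m₀ := by
  have hρ : ∀ ρ : ℝ≥0, ρ < ⟨c ^ m₀, (Real.rpow_pos_of_pos hc0 m₀).le⟩ →
      PropertyPRoot K Ω L (α : Ω) ρ := by
    intro ρ hρ
    have hρ' : (ρ : ℝ) < c ^ m₀ := hρ
    by_cases h0 : (ρ : ℝ) = 0
    · refine (h (m₀ + 1) (lt_add_one m₀)).mono ?_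
      change (ρ : ℝ) ≤ c ^ (m₀ + 1)
      rw [h0]
      exact (Real.rpow_pos_of_pos hc0 _).le
    · have hpos : 0 < (ρ : ℝ) := lt_of_le_of_ne ρ.2 (Ne.symm h0)
      have hm : m₀ < Real.logb c ρ := by
        rw [← Real.rpow_lt_rpow_left_iff_of_base_lt_one hc0 hc1, Real.rpow_logb hc0 hc1.ne hpos]
        exact hρ'
      refine (h _ hm).mono ?_
      change (ρ : ℝ) ≤ c ^ Real.logb c ρ
      rw [Real.rpow_logb hc0 hc1.ne hpos]
  have h1 := le_threshold_of_forall_propertyPRoot L α hα hα1 hinv s₁ hs₁ hmin hres hρ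
  have h2 : c ^ m₀ ≤ (threshold L α s₁ : ℝ) := h1
  rw [coe_threshold_eq_rpow_uMax L D hc0 hc1 α hD s₁ hs₁ hmin] at h2
  exact (Real.rpow_le_rpow_left_iff_of_base_lt_one hc0 hc1).1 h2

end Field

end Fermat.Agent.S56x.Ram.PmSharpDatum
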