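import Mathlib
import Fermat.Agent.Lib.Ram.PmSharpFinal
import Fermat.Agent.S56x.Ram.PmSharpDatum

/-!
helper61 (P-S56, block (A) LOCAL).  **Fontaine's Prop. 1.5 (ii), sharp, unconditional, against
helper74's `RamDatum`** (Fontaine normalisation): for `K` complete locally compact ultrametric,
`Ω` algebraically closed algebraic normed over `K`, `L/K` finite Galois inside `Ω` with
`𝓞_L = 𝓞_K[x]`, and `D : RamDatum (L ≃ₐ[K] L)` with `‖σ x - x‖ = c ^ (D.i σ)` (`c = ‖π_K‖`):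

`uMax_le_of_forall_propertyP : (∀ m > m₀, PropertyP K Ω L (c ^ m)) → D.uMax ≤ m₀`   (`0 ≤ m₀`).
-/

set_option autoImplicit false

open Polynomial IntermediateField
open scoped ENNReal NNReal

namespace Fermat.Agent.S56x.Ram.PmSharpDatumFinal

open Fermat.Agent.Lib.Ram Fermat.Agent.Lib.Ram.PropertyPm Fermat.Agent.Lib.Ram.PmSharp
open Fermat.Agent.Lib.Ram.PmSharpFinal Fermat.Agent.S56x.Ram Fermat.Agent.S56x.Ram.PmSharpDatum

/-- `(P_m)` for all `m > m₀` is `(P_ρ)` for all `ρ < c ^ m₀`. -/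
theorem forall_lt_rpow {P : ℝ≥0 → Prop} (hmono : ∀ ρ ρ' : ℝ≥0, ρ ≤ ρ' → P ρ' → P ρ) {c : ℝ}
    (hc0 : 0 < c) (hc1 : c < 1) {m₀ : ℝ}
    (h : ∀ m : ℝ, m₀ < m → P ⟨c ^ m, (Real.rpow_pos_of_pos hc0 m).le⟩) :
    ∀ ρ : ℝ≥0, ρ < ⟨c ^ m₀, (Real.rpow_pos_of_pos hc0 m₀).le⟩ → P ρ := by
  intro ρ hρ
  have hρ' : (ρ : ℝ) < c ^ m₀ := hρ
  by_cases h0 : (ρ : ℝ) = 0
  · refine hmono _ _ ?_ (h (m₀ + 1) (lt_add_one m₀))
    change (ρ : ℝ) ≤ c ^ (m₀ + 1)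
    rw [h0]
    exact (Real.rpow_pos_of_pos hc0 _).le
  · have hpos : 0 < (ρ : ℝ) := lt_of_le_of_ne ρ.2 (Ne.symm h0)
    have hm : m₀ < Real.logb c ρ := by
      rw [← Real.rpow_lt_rpow_left_iff_of_base_lt_one hc0 hc1, Real.rpow_logb hc0 hc1.ne hpos]
      exact hρ'
    refine hmono _ _ ?_ (h _ hm)
    change (ρ : ℝ) ≤ c ^ Real.logb c ρ
    rw [Real.rpow_logb hc0 hc1.ne hpos]

/-- For the trivial group `uMax = 0`. -/
theorem uMax_eq_zero_of_subsingleton {G : Type*} [Group G] [Fintype G] (D : RamDatum G)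
    (h : ∀ s : G, s = 1) : D.uMax = 0 := by
  have hiMax : D.iMax = 0 := by
    apply le_antisymm _ D.iMax_nonneg
    rw [D.iMax_le_iff le_rfl]
    intro s hs
    exact absurd (h s) hs
  unfold RamDatum.uMax
  rw [hiMax, D.Phi_of_nonpos le_rfl, mul_zero]

variable {K : Type*} [NontriviallyNormedField K] [CompleteSpace K] [IsUltrametricDist K]
  [LocallyCompactSpace K]
variable {Ω : Type*} [NormedField Ω] [IsUltrametricDist Ω] [NormedAlgebra K Ω]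
variable (L : IntermediateField K Ω) [FiniteDimensional K L] [IsGalois K L]

/-- **Fontaine Prop. 1.5 (ii)**, sharp, unconditional, hom form, Fontaine normalisation. -/
theorem uMax_le_of_forall_propertyP [IsAlgClosed Ω] [Algebra.IsAlgebraic K Ω]
    (p : ℕ) [Fact p.Prime] (hp : ‖(p : Ω)‖ < 1)
    (D : RamDatum (L ≃ₐ[K] L)) {c : ℝ} (hc0 : 0 < c) (hc1 : c < 1)
    (x : intE L) (hx : Algebra.adjoin (intK K) {x} = ⊤)
    (hD : ∀ σ : L ≃ₐ[K] L, σ ≠ 1 → ‖((σ (toL L x) : L) : Ω) - x‖ = c ^ (D.i σ).toReal)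
    {m₀ : ℝ} (hm₀ : 0 ≤ m₀)
    (h : ∀ m : ℝ, m₀ < m → PropertyP K Ω L ⟨c ^ m, (Real.rpow_pos_of_pos hc0 m).le⟩) :
    D.uMax ≤ m₀ := by
  by_cases hne : ∃ σ : L ≃ₐ[K] L, σ ≠ 1
  · obtain ⟨s₁, hs₁, hmin⟩ := exists_min_conj L (toL L x) hne
    have hρ := forall_lt_rpow (P := fun ρ => PropertyP K Ω L ρ)
      (fun ρ ρ' hle hP => hP.mono hle) hc0 hc1 h
    have h1 := le_threshold_of_forall_propertyP L p hp x hx s₁ hs₁ hmin hρ
    have h2 : c ^ m₀ ≤ (threshold L (toL L x) s₁ : ℝ) := h1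
    rw [coe_threshold_eq_rpow_uMax L D hc0 hc1 (toL L x) hD s₁ hs₁ hmin] at h2
    exact (Real.rpow_le_rpow_left_iff_of_base_lt_one hc0 hc1).1 h2
  · rw [uMax_eq_zero_of_subsingleton D fun s => by
      by_contra hs
      exact hne ⟨s, hs⟩]
    exact hm₀

end Fermat.Agent.S56x.Ram.PmSharpDatumFinal
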