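/-
P-S56 block (A), file RAM-4 (helper12): TAME TOWERS.  Abstract assembly (on top of helper74's
`Lib/Ram/Herbrand` + `Lib/Ram/HerbrandCor`, SERRE numbering) of the step

  `M ⊇ L' ⊇ L ⊇ K`,  `L/K` tame with ramification index `e_L`,  `L'/L` a layer with a single lower
  break `b` (e.g. Kummer of degree `p`),  `Gal(M/K)^v = 1` for `v > v₀`   ⟹   `b ≤ e_L · v₀`,

and of the integrality argument that removes the slack `1/e_M` of Fontaine's Prop. 1.5(ii):

  `v₀ = 1/(p-1) + 1/e_M`,  `e_L = (p-1) m`,  `e_L < e_M`   ⟹   `b ≤ m = e_L/(p-1)`,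
  and with the Kummer formula `b = p m - i` (`i` = level of the Kummer generator): `e_L ≤ i`.

Groups: `G = Gal(M/K)`, `H = Gal(M/L) ◁ G`, `N = Gal(M/L') ◁ H` (as a subgroup of `H`).
The arithmetic enters only through the two `QuotientFormula`s (Serre IV Prop. 3).
-/
import Fermat.Agent.Lib.Ram.HerbrandCor

set_option autoImplicit false

namespace Fermat.Agent.S56x.Ram.TameTower

open Fermat.Agent.Lib.Ram Fermat.Agent.Lib.Ram.LowerNumbering

variable {G : Type*} [Group G] [Fintype G] (I : LowerNumbering G)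
  {H : Subgroup G} [H.Normal] [Fintype H] [Fintype (G ⧸ H)] {IQ : LowerNumbering (G ⧸ H)}
  {N : Subgroup H} [N.Normal] [Fintype N] [Fintype (H ⧸ N)] {IL : LowerNumbering (H ⧸ N)}

/-- **Tame tower, single layer.**  `G/H` tame, `H/N` with single break `b`; if the upper numbering
of `G` is bounded by `v₀ ≥ 0` then `b ≤ e_{G/H} · v₀`. -/
theorem break_le_mul_of_upperBounded (hq : QuotientFormula I H IQ) (ht : IQ.IsTame)
    (hq' : QuotientFormula (I.restrict H) N IL) {b : ℕ}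
    (hall : ∀ s : H ⧸ N, ((b + 1 : ℕ) : ℕ∞) ≤ IL.i s) {s : H ⧸ N} (hs : s ≠ 1)
    (hsb : IL.i s = ((b + 1 : ℕ) : ℕ∞)) {v₀ : ℝ} (hv : 0 ≤ v₀) (h : I.UpperBounded v₀) :
    (b : ℝ) ≤ IQ.e0 * v₀ :=
  IL.break_le_of_upperBounded hall hs hsb
    (UpperBounded.quotient (I.restrict H) hq' ((upperBounded_iff_of_tame I hq ht hv).1 h))

/-- The same for the whole layer `H` (no further quotient): `H` itself has a single break. -/
theorem break_le_mul_of_upperBounded' (hq : QuotientFormula I H IQ) (ht : IQ.IsTame) {b : ℕ}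
    (hall : ∀ s : H, ((b + 1 : ℕ) : ℕ∞) ≤ (I.restrict H).i s) {s : H} (hs : s ≠ 1)
    (hsb : (I.restrict H).i s = ((b + 1 : ℕ) : ℕ∞)) {v₀ : ℝ} (hv : 0 ≤ v₀)
    (h : I.UpperBounded v₀) : (b : ℝ) ≤ IQ.e0 * v₀ :=
  (I.restrict H).break_le_of_upperBounded hall hs hsb ((upperBounded_iff_of_tame I hq ht hv).1 h)

/-- Integrality: a natural number `b ≤ m + ε` with `ε < 1` satisfies `b ≤ m`. -/
theorem nat_le_of_le_add_lt_one {b m : ℕ} {ε : ℝ} (h : (b : ℝ) ≤ m + ε) (hε : ε < 1) : b ≤ m := by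
  by_contra hlt
  rw [not_le] at hlt
  have : (m : ℝ) + 1 ≤ b := by exact_mod_cast hlt
  linarith

/-- a non-trivial element of the inertia group forces `2 ≤ e0`. -/
theorem two_le_e0 {G' : Type*} [Group G'] [Fintype G'] (J : LowerNumbering G') {s : G'}
    (hs : s ≠ 1) (h1 : 1 ≤ J.i s) : 2 ≤ J.e0 := by
  classical
  unfold LowerNumbering.e0
  have hsub : ({1, s} : Finset G') ⊆ Finset.univ.filter fun t : G' => 1 ≤ J.i t := by
    intro t ht
    rw [Finset.mem_insert, Finset.mem_singleton] at ht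
    rw [Finset.mem_filter]
    refine ⟨Finset.mem_univ _, ?_⟩
    rcases ht with rfl | rfl
    · rw [J.i_one]; exact le_top
    · exact h1
  have hcard : ({1, s} : Finset G').card = 2 := Finset.card_pair (Ne.symm hs)
  exact hcard ▸ Finset.card_le_card hsub

/-- In a tame tower with a ramified layer `H/N` (some `s ≠ 1` in its inertia group), the
ramification index of `G` is strictly bigger than that of `G/H`: `e_{G/H} < e_G`
(even `2 e_{G/H} ≤ e_G`). -/
theorem e0_lt_e0 (hq : QuotientFormula I H IQ) (hq' : QuotientFormula (I.restrict H) N IL)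
    {s : H ⧸ N} (hs : s ≠ 1) (h1 : 1 ≤ IL.i s) : IQ.e0 < I.e0 := by
  have h2 : 2 ≤ IL.e0 := two_le_e0 IL hs h1
  have h3 : (I.restrict H).e0 = IL.e0 * ((I.restrict H).restrict N).e0 := e0_eq_mul _ hq'
  have h4 : 0 < ((I.restrict H).restrict N).e0 := e0_pos _
  have h5 : 2 ≤ (I.restrict H).e0 := by
    rw [h3]; nlinarith
  rw [e0_eq_mul I hq]
  have h6 : 0 < IQ.e0 := e0_pos _
  nlinarith

/-- **Fontaine's bound with slack, tame tower.**  `G/H` tame with `e_{G/H} = (p-1) m`, the layer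
`H/N` ramified with a single break `b`; if `G` is upper-bounded by `1/(p-1) + 1/e_G`
(Fontaine Thm A for `e = n = 1` in Serre numbering, with the slack of Prop. 1.5(ii)) then
`b ≤ m = e_{G/H}/(p-1)`. -/
theorem break_le_of_fontaine (hq : QuotientFormula I H IQ) (ht : IQ.IsTame)
    (hq' : QuotientFormula (I.restrict H) N IL) {b : ℕ}
    (hall : ∀ s : H ⧸ N, ((b + 1 : ℕ) : ℕ∞) ≤ IL.i s) {s : H ⧸ N} (hs : s ≠ 1)
    (hsb : IL.i s = ((b + 1 : ℕ) : ℕ∞)) {p m : ℕ} (hp : 2 ≤ p) (he : IQ.e0 = (p - 1) * m)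
    (h : I.UpperBounded (1 / ((p : ℝ) - 1) + 1 / I.e0)) : b ≤ m := by
  have hp1 : (0 : ℝ) < (p : ℝ) - 1 := by
    have : (2 : ℝ) ≤ p := by exact_mod_cast hp
    linarith
  have hI0 : (0 : ℝ) < I.e0 := by exact_mod_cast I.e0_pos
  have hv : (0 : ℝ) ≤ 1 / ((p : ℝ) - 1) + 1 / I.e0 := by positivity
  have h1 := break_le_mul_of_upperBounded I hq ht hq' hall hs hsb hv h
  have h1s : 1 ≤ IL.i s := by
    rw [hsb]; exact_mod_cast Nat.le_add_left 1 b
  have hlt : (IQ.e0 : ℝ) < I.e0 := by exact_mod_cast e0_lt_e0 I hq hq' hs h1s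
  have heR : (IQ.e0 : ℝ) = ((p : ℝ) - 1) * m := by
    rw [he, Nat.cast_mul, Nat.cast_sub (by omega : 1 ≤ p), Nat.cast_one]
  have h2 : (IQ.e0 : ℝ) * (1 / ((p : ℝ) - 1) + 1 / I.e0) = m + IQ.e0 / I.e0 := by
    rw [mul_add, heR]
    field_simp
  rw [h2] at h1
  exact nat_le_of_le_add_lt_one h1 ((div_lt_one hI0).2 hlt)

/-- **Consumer form (Kummer level).**  With the Kummer break formula `b + i = p m`
(`m = e_L/(p-1)`, `i` = level of the Kummer generator), Fontaine's bound forces `e_L ≤ i`. -/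
theorem level_ge_of_fontaine (hq : QuotientFormula I H IQ) (ht : IQ.IsTame)
    (hq' : QuotientFormula (I.restrict H) N IL) {b : ℕ}
    (hall : ∀ s : H ⧸ N, ((b + 1 : ℕ) : ℕ∞) ≤ IL.i s) {s : H ⧸ N} (hs : s ≠ 1)
    (hsb : IL.i s = ((b + 1 : ℕ) : ℕ∞)) {p m i : ℕ} (hp : 2 ≤ p) (he : IQ.e0 = (p - 1) * m)
    (hbi : b + i = p * m)
    (h : I.UpperBounded (1 / ((p : ℝ) - 1) + 1 / I.e0)) : IQ.e0 ≤ i := by
  have hb := break_le_of_fontaine I hq ht hq' hall hs hsb hp he h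
  rw [he]
  have : p * m = (p - 1) * m + m := by
    obtain ⟨q, rfl⟩ : ∃ q, p = q + 1 := ⟨p - 1, by omega⟩
    simp [Nat.add_mul]
  omega

end Fermat.Agent.S56x.Ram.TameTower
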